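import Fermat.Agent.S31.Lattice

set_option autoImplicit false

/-!
# NEW: the converse link: every relation between the Hecke operators on `S₂(Γ₀(N))` holds on the lattice
`Hom_par(Γ₀(N), ℤ)`

By Eichler-Shimura (S21) every parabolic class is `(1 + ι) per f + (1 - ι) per g`, and the Hecke operators
commute with `per` and with the involution `ι` (chapter S16).
-/

namespace Fermat.Agent.NEW

open CongruenceSubgroup Matrix.SpecialLinearGroup ModularForm ModularCurve ModularCurve.Period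
open Fermat.Agent.S16 Fermat.Agent.S31
open scoped MatrixGroups

theorem funT_apply (N : ℕ) {ℓ : ℕ} (h : ℓ.Prime ∧ ¬ ℓ ∣ N) (φ : Gamma0 N → ℂ) :
    funT N ℓ φ = heckeFun N h.1 φ := by
  unfold funT
  rw [dif_pos h]
  rfl

theorem latι_latT (N : ℕ) (ℓ : ℕ) (φ : Lat N) : latι N (latT N ℓ φ) = funT N ℓ (latι N φ) := by
  by_cases h : ℓ.Prime ∧ ¬ ℓ ∣ N
  · rw [funT_apply N h]
    funext γ
    change (((latT N ℓ φ).1 (Additive.ofMul γ) : ℤ) : ℂ) = _
    rw [latT_apply N h.1 h.2]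
    exact (heckeFun_comp N h.1 (Int.castAddHom ℂ) (fun δ => φ.1 (Additive.ofMul δ)) γ).symm
  · have h1 : latT N ℓ = 0 := dif_neg h
    have h2 : funT N ℓ = 0 := dif_neg h
    rw [h1, h2]
    simp

theorem latJ_heckeFam (N : ℕ) [NeZero N] (ℓ : ℕ) (f : CuspForm (Gamma0 N) 2) :
    latJ N (heckeFam N ℓ f) = funT N ℓ (latJ N f) := by
  by_cases h : ℓ.Prime ∧ ¬ ℓ ∣ N
  · have h3 : heckeFam N ℓ = CuspForm.heckeTLin 2 h.1 h.2 := dif_pos h
    rw [funT_apply N h, h3]
    funext γ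
    have h4 := periodMap_heckeFormsGen N ⟨ℓ, h.1⟩ f γ
    rw [CuspForm.heckeFormsGen_of_not_dvd (ℓ := ⟨ℓ, h.1⟩) h.2, CuspForm.heckeAlgebra.coe_T] at h4
    exact h4
  · have h1 : heckeFam N ℓ = 0 := dif_neg h
    have h2 : funT N ℓ = 0 := dif_neg h
    rw [h1, h2]
    simp

/-- the twisted period map as an additive map to functions. -/
noncomputable def latJ' (N : ℕ) [NeZero N] : CuspForm (Gamma0 N) 2 →+ (Gamma0 N → ℂ) where
  toFun f := perJ N f
  map_zero' := by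
    have := perJ_add N 0 0
    rw [add_zero] at this
    exact left_eq_add.mp this
  map_add' f g := perJ_add N f g

theorem latJ'_heckeFam (N : ℕ) [NeZero N] (ℓ : ℕ) (f : CuspForm (Gamma0 N) 2) :
    latJ' N (heckeFam N ℓ f) = funT N ℓ (latJ' N f) := by
  by_cases h : ℓ.Prime ∧ ¬ ℓ ∣ N
  · have h3 : heckeFam N ℓ = CuspForm.heckeTLin 2 h.1 h.2 := dif_pos h
    rw [funT_apply N h, h3]
    funext γ
    have h2 := heckeFun_jConj N h.1 (periodMap N f)
      ((mem_parabolicHoms_iff (R := ℂ)).mp (Fermat.Agent.ES.periodMap_mem_parabolicHoms N f)) γ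
    have h4 := periodMap_heckeFormsGen N ⟨ℓ, h.1⟩ f (jConjGamma0 N γ)
    rw [CuspForm.heckeFormsGen_of_not_dvd (ℓ := ⟨ℓ, h.1⟩) h.2, CuspForm.heckeAlgebra.coe_T] at h4
    exact h4.trans h2.symm
  · have h1 : heckeFam N ℓ = 0 := dif_neg h
    have h2 : funT N ℓ = 0 := dif_neg h
    rw [h1, h2]
    simp

theorem latι_injective (N : ℕ) : Function.Injective (latι N) := by
  intro φ ψ h
  apply Subtype.ext
  refine AddMonoidHom.ext fun γ => ?_
  have h1 : ((φ.1 (Additive.ofMul (Additive.toMul γ)) : ℤ) : ℂ) =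
      ((ψ.1 (Additive.ofMul (Additive.toMul γ)) : ℤ) : ℂ) := congrFun h (Additive.toMul γ)
  exact_mod_cast h1

/-- every integral parabolic class is a combination of periods. -/
theorem latι_eq_periods (N : ℕ) [NeZero N] (φ : Lat N) :
    ∃ f g : CuspForm (Gamma0 N) 2,
      latι N φ = latJ N f + latJ' N f + (latJ N g - latJ' N g) := by
  let φC : Additive (Gamma0 N) →+ ℂ := (Int.castAddHom ℂ).comp φ.1
  have hφC : φC ∈ parabolicHoms ℂ (Gamma0 N) ℂ := by
    intro γ hγ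
    show ((φ.1 (Additive.ofMul γ) : ℤ) : ℂ) = 0
    rw [φ.2 γ hγ, Int.cast_zero]
  rw [← (Fermat.Agent.ES.eichlerShimura N).2] at hφC
  obtain ⟨⟨f, g⟩, hfg⟩ := hφC
  obtain ⟨pml, hpml, hdef⟩ := periodHomPair_def N (Fermat.Agent.ES.existsPeriodMapLinear N)
  refine ⟨f, g, ?_⟩
  funext γ
  have := congrArg (fun ψ : Additive (Gamma0 N) →+ ℂ => ψ (Additive.ofMul γ)) hfg
  rw [hdef] at this
  simp only [LinearMap.coprod_apply, LinearMap.comp_apply, LinearMap.add_apply,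
    LinearMap.sub_apply, LinearMap.id_apply, hpml, AddMonoidHom.add_apply,
    AddMonoidHom.sub_apply, charInvolution_apply] at this
  exact this.symm

/-- **the converse link**. -/
theorem lat_link_conv (N : ℕ) [NeZero N] (P : FreeAlgebra ℤ ℕ)
    (hP : FreeAlgebra.lift ℤ (heckeFam N) P = 0) : FreeAlgebra.lift ℤ (latT N) P = 0 := by
  have h1 : ∀ φ, latι N (FreeAlgebra.lift ℤ (latT N) P φ) =
      FreeAlgebra.lift ℤ (funT N) P (latι N φ) :=
    S30.linkPeriod_intertwine (S30.linkPeriod_toAdd ℤ (Lat N))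
      (S30.linkPeriod_toAdd ℂ (Gamma0 N → ℂ)) (latT N) (funT N) (latι N) (latι_latT N) P
  have h2 : ∀ f, latJ N (FreeAlgebra.lift ℤ (heckeFam N) P f) =
      FreeAlgebra.lift ℤ (funT N) P (latJ N f) :=
    S30.linkPeriod_intertwine (S30.linkPeriod_toAdd ℂ (CuspForm (Gamma0 N) 2))
      (S30.linkPeriod_toAdd ℂ (Gamma0 N → ℂ)) (heckeFam N) (funT N) (latJ N) (latJ_heckeFam N) P
  have h3 : ∀ f, latJ' N (FreeAlgebra.lift ℤ (heckeFam N) P f) =
      FreeAlgebra.lift ℤ (funT N) P (latJ' N f) :=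
    S30.linkPeriod_intertwine (S30.linkPeriod_toAdd ℂ (CuspForm (Gamma0 N) 2))
      (S30.linkPeriod_toAdd ℂ (Gamma0 N → ℂ)) (heckeFam N) (funT N) (latJ' N) (latJ'_heckeFam N) P
  ext1 φ
  apply latι_injective N
  obtain ⟨f, g, hfg⟩ := latι_eq_periods N φ
  rw [h1, hfg, map_add, map_add, map_sub, ← h2, ← h3, ← h2, ← h3, hP]
  simp

end Fermat.Agent.NEW
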