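import Mathlib

set_option autoImplicit false

/-!
# NEW: masking the variables of a noncommutative polynomial
-/

noncomputable section

namespace Fermat.Agent.NEW

open Classical in
/-- substitute `0` for the variables `ℓ` which do not satisfy `G`. -/
def mask (G : ℕ → Prop) : FreeAlgebra ℤ ℕ →ₐ[ℤ] FreeAlgebra ℤ ℕ :=
  FreeAlgebra.lift ℤ (fun ℓ => if G ℓ then FreeAlgebra.ι ℤ ℓ else 0)

theorem mask_ι (G : ℕ → Prop) [DecidablePred G] (ℓ : ℕ) :
    mask G (FreeAlgebra.ι ℤ ℓ) = if G ℓ then FreeAlgebra.ι ℤ ℓ else 0 := by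
  rw [mask, FreeAlgebra.lift_ι_apply]
  split_ifs <;> rfl

theorem lift_mask {A : Type*} [Ring A] [Algebra ℤ A] (t : ℕ → A) (G : ℕ → Prop) [DecidablePred G]
    (P : FreeAlgebra ℤ ℕ) :
    FreeAlgebra.lift ℤ t (mask G P) = FreeAlgebra.lift ℤ (fun ℓ => if G ℓ then t ℓ else 0) P := by
  have h : (FreeAlgebra.lift ℤ t).comp (mask G) =
      FreeAlgebra.lift ℤ (fun ℓ => if G ℓ then t ℓ else 0) := by
    apply FreeAlgebra.hom_ext
    funext ℓ
    simp only [Function.comp_apply, AlgHom.comp_apply, mask_ι, FreeAlgebra.lift_ι_apply]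
    split_ifs
    · exact FreeAlgebra.lift_ι_apply _ _
    · exact map_zero _
  exact DFunLike.congr_fun h P

/-- two families which agree where `G` holds have the same masked polynomials. -/
theorem lift_mask_congr {A : Type*} [Ring A] [Algebra ℤ A] (t t' : ℕ → A) (G : ℕ → Prop)
    (h : ∀ ℓ, G ℓ → t ℓ = t' ℓ) (P : FreeAlgebra ℤ ℕ) :
    FreeAlgebra.lift ℤ t (mask G P) = FreeAlgebra.lift ℤ t' (mask G P) := by
  classical
  rw [lift_mask, lift_mask]
  congr 2
  funext ℓ
  split_ifs with hG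
  · exact h ℓ hG
  · rfl

/-- masking does nothing if the family vanishes outside `G`. -/
theorem lift_mask_of_zero {A : Type*} [Ring A] [Algebra ℤ A] (t : ℕ → A) (G : ℕ → Prop)
    (h : ∀ ℓ, ¬ G ℓ → t ℓ = 0) (P : FreeAlgebra ℤ ℕ) :
    FreeAlgebra.lift ℤ t (mask G P) = FreeAlgebra.lift ℤ t P := by
  classical
  rw [lift_mask]
  congr 2
  funext ℓ
  split_ifs with hG
  · rfl
  · exact (h ℓ hG).symm

/-- `mask G ∘ mask G' = mask G` if `G → G'`. -/
theorem mask_mask (G G' : ℕ → Prop) (h : ∀ ℓ, G ℓ → G' ℓ) (P : FreeAlgebra ℤ ℕ) :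
    mask G' (mask G P) = mask G P := by
  classical
  have h1 : (mask G').comp (mask G) = mask G := by
    apply FreeAlgebra.hom_ext
    funext ℓ
    simp only [Function.comp_apply, AlgHom.comp_apply, mask_ι]
    split_ifs with hG
    · rw [mask_ι, if_pos (h ℓ hG)]
    · exact map_zero _
  exact DFunLike.congr_fun h1 P

/-- a polynomial in commuting-with-`v` eigen-operators acts on an eigenvector through the eigenvalues
(matrix version). -/
theorem lift_mulVec_eigen {R : Type*} [CommRing R] {r : ℕ} (T : ℕ → Matrix (Fin r) (Fin r) R)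
    (a : ℕ → R) (v : Fin r → R) (h : ∀ ℓ, (T ℓ).mulVec v = a ℓ • v) (P : FreeAlgebra ℤ ℕ) :
    (FreeAlgebra.lift ℤ T P).mulVec v = FreeAlgebra.lift ℤ a P • v := by
  induction P using FreeAlgebra.induction with
  | grade0 c =>
    rw [AlgHom.commutes, AlgHom.commutes, Algebra.algebraMap_eq_smul_one,
      Algebra.algebraMap_eq_smul_one, Matrix.smul_mulVec, Matrix.one_mulVec, smul_assoc, one_smul]
  | grade1 ℓ => rw [FreeAlgebra.lift_ι_apply, FreeAlgebra.lift_ι_apply, h]
  | mul x y hx hy =>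
    rw [map_mul, map_mul, ← Matrix.mulVec_mulVec, hy, Matrix.mulVec_smul, hx, smul_smul, mul_comm]
  | add x y hx hy => rw [map_add, map_add, Matrix.add_mulVec, hx, hy, add_smul]

/-- `FreeAlgebra.lift` commutes with the entrywise cast of integer matrices. -/
theorem lift_map_cast {R : Type*} [CommRing R] {r : ℕ} (T : ℕ → Matrix (Fin r) (Fin r) ℤ)
    (P : FreeAlgebra ℤ ℕ) :
    FreeAlgebra.lift ℤ (fun ℓ => (T ℓ).map (Int.castRingHom R)) P =
      (FreeAlgebra.lift ℤ T P).map (Int.castRingHom R) := by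
  induction P using FreeAlgebra.induction with
  | grade0 c =>
    rw [AlgHom.commutes, AlgHom.commutes, Algebra.algebraMap_eq_smul_one,
      Algebra.algebraMap_eq_smul_one]
    have := map_zsmul (Int.castRingHom R).mapMatrix c (1 : Matrix (Fin r) (Fin r) ℤ)
    rw [map_one] at this
    exact this.symm
  | grade1 ℓ => rw [FreeAlgebra.lift_ι_apply, FreeAlgebra.lift_ι_apply]
  | mul x y hx hy =>
    rw [map_mul, map_mul, hx, hy]
    exact (map_mul (Int.castRingHom R).mapMatrix _ _).symm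
  | add x y hx hy =>
    rw [map_add, map_add, hx, hy]
    exact (map_add (Int.castRingHom R).mapMatrix _ _).symm

end Fermat.Agent.NEW
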