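import Fermat.Agent.S30.GeomAsm
import Fermat.Agent.S30.Convert
import Fermat.Agent.NEW.LinkConv
import Fermat.Agent.NEW.Mask

set_option autoImplicit false

/-!
# NEW: the `p`-adic Tate module of `J₀(N)` in coordinates, TOGETHER with its link to the Kummer classes

`Coord N p` extends `S30.AdicESDatum N p` (integer matrices `T ℓ`, `R n σ`) by the surjections
`κ n : ℤ ^ r → V_{p^n}(N)` with kernel `p ^ n ℤ ^ r` which intertwine `R n σ` with `rhoV σ` and `T ℓ` with `TV ℓ`,
and by the converse link.  (`S30.exists_adic` hides this information.)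
-/

noncomputable section

namespace Fermat.Agent.NEW

open Fermat.Agent.S24 (Kb FN)
open Fermat.Agent.S30

/-- the datum of S30 together with the uniformisations `κ n`. -/
structure Coord (N p : ℕ) [NeZero N] [NeZero p] extends AdicESDatum N p where
  κ : ∀ n : ℕ, (Fin r → ℤ) →+ GES.VN N (p ^ n)
  κ_surj : ∀ n, Function.Surjective (κ n)
  κ_ker : ∀ (n : ℕ) (h : Fin r → ℤ), κ n h = 0 → ∀ i, (p : ℤ) ^ n ∣ h i
  κ_R : ∀ (n : ℕ) (σ : GQ) (h : Fin r → ℤ),
    κ n ((R n σ).mulVec h) = GES.rhoV N (p ^ n) σ (κ n h)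
  κ_T : ∀ (n ℓ : ℕ), Good N p ℓ → ∀ h : Fin r → ℤ,
    κ n ((T ℓ).mulVec h) = GES.TV N (p ^ n) ℓ (κ n h)
  κ_trans : ∀ (n : ℕ) (h : Fin r → ℤ),
    GES.Vm.trans Kb (FN N) (pow_dvd_pow p (Nat.le_succ n)) (κ (n + 1) h) = κ n h
  link_conv : ∀ P : FreeAlgebra ℤ ℕ, FreeAlgebra.lift ℤ (heckeOp N p) P = 0 →
    FreeAlgebra.lift ℤ T P = 0

/-- `S30.exists_adic`, keeping track of the basis. -/
theorem exists_adic' {N p : ℕ} [NeZero N] (hp : p.Prime) (𝒦 : S31.KummerSystem N p)
    (h𝒦 : IsTate 𝒦) :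
    ∃ (D : AdicESDatum N p) (e : (Fin D.r → ℤ) ≃ₗ[ℤ] 𝒦.H),
      (∀ n σ h, 𝒦.κ n (e ((D.R n σ).mulVec h)) = 𝒦.act n σ (𝒦.κ n (e h))) ∧
      (∀ ℓ, Good N p ℓ → ∀ h, e ((D.T ℓ).mulVec h) = 𝒦.T ℓ (e h)) ∧
      (∀ ℓ, ¬ Good N p ℓ → D.T ℓ = 0) := by
  classical
  let r := Module.finrank ℤ 𝒦.H
  let b : Module.Basis (Fin r) ℤ 𝒦.H := Module.finBasis ℤ 𝒦.H
  let M : Module.End ℤ 𝒦.H ≃ₐ[ℤ] Matrix (Fin r) (Fin r) ℤ := LinearMap.toMatrixAlgEquiv b
  choose c hc using h𝒦.stab
  let Rl : ℕ → GQ → Module.End ℤ 𝒦.H := fun n σ => b.constr ℤ (fun j => c n σ (b j))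
  have hRl : ∀ n σ x, 𝒦.κ n (Rl n σ x) = 𝒦.act n σ (𝒦.κ n x) := by
    intro n σ x
    refine convert_ext 𝒦 b ((𝒦.κ n).comp (Rl n σ).toAddMonoidHom)
      ((𝒦.act n σ : 𝒦.W n →+ 𝒦.W n).comp (𝒦.κ n)) (fun j => ?_) x
    change 𝒦.κ n (Rl n σ (b j)) = 𝒦.act n σ (𝒦.κ n (b j))
    rw [Module.Basis.constr_basis, hc]
  have hfix : ∀ n σ, (∀ x, 𝒦.act n σ (𝒦.κ n x) = 𝒦.κ n x) → MCong (pIdeal p n) (M (Rl n σ)) 1 := by
    intro n σ h
    have := convert_mcong 𝒦 b n (Rl n σ) 1 (fun x => by rw [hRl, h, Module.End.one_apply])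
    rwa [map_one] at this
  let s : FreeAlgebra ℤ ℕ →ₐ[ℤ] FreeAlgebra ℤ ℕ := FreeAlgebra.lift ℤ
    (fun ℓ => if Good N p ℓ then FreeAlgebra.ι ℤ ℓ else 0)
  have hs : ∀ ℓ, s (FreeAlgebra.ι ℤ ℓ) = if Good N p ℓ then FreeAlgebra.ι ℤ ℓ else 0 := fun ℓ =>
    FreeAlgebra.lift_ι_apply _ _
  have hkey : ∀ (f : Module.End ℤ 𝒦.H) (h : Fin r → ℤ),
      b.equivFun.symm ((M f).mulVec h) = f (b.equivFun.symm h) := by
    intro f h
    apply b.equivFun.injective
    rw [LinearEquiv.apply_symm_apply]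
    have := LinearMap.toMatrix_mulVec_repr b b f (b.equivFun.symm h)
    have h2 : (b.repr (b.equivFun.symm h) : Fin r → ℤ) = h := b.equivFun.apply_symm_apply h
    rw [h2] at this
    exact this
  let D : AdicESDatum N p :=
    { r := r
      T := fun ℓ => if Good N p ℓ then M (𝒦.T ℓ) else 0
      T_comm := by
        intro ℓ ℓ'
        by_cases h : Good N p ℓ
        · by_cases h' : Good N p ℓ'
          · simp only [if_pos h, if_pos h']
            rw [← map_mul, ← map_mul, convert_T_comm 𝒦 hp ℓ ℓ' h h']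
          · simp only [if_neg h', mul_zero, zero_mul]
        · simp only [if_neg h, mul_zero, zero_mul]
      R := fun n σ => M (Rl n σ)
      R_one := by
        intro n
        exact hfix n 1 fun x => by rw [map_one]; rfl
      R_mul := by
        intro n σ τ
        have := convert_mcong 𝒦 b n (Rl n (σ * τ)) (Rl n σ * Rl n τ) (fun x => by
          rw [hRl, Module.End.mul_apply, hRl, hRl, map_mul]; rfl)
        rwa [map_mul] at this
      R_succ := by
        intro n σ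
        refine convert_mcong 𝒦 b n (Rl (n + 1) σ) (Rl n σ) (fun x => ?_)
        rw [hRl]
        exact (h𝒦.compat n σ x _ (hRl (n + 1) σ x).symm).symm
      R_T := by
        intro n σ ℓ
        by_cases h : Good N p ℓ
        · simp only [if_pos h]
          have := convert_mcong 𝒦 b n (Rl n σ * 𝒦.T ℓ) (𝒦.T ℓ * Rl n σ) (fun x => by
            rw [Module.End.mul_apply, Module.End.mul_apply, hRl, 𝒦.κ_T n ℓ h.1 h.2,
              𝒦.κ_T n ℓ h.1 h.2, hRl, 𝒦.comm n ℓ h.1 h.2])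
          rwa [map_mul, map_mul] at this
        · simp only [if_neg h, mul_zero, zero_mul]
          exact MCong.refl _
      level := by
        intro n
        choose L hL hLfix using fun j => 𝒦.smooth n (𝒦.κ n (b j))
        refine ⟨⨆ j, L j, IntermediateField.finiteDimensional_iSup_of_finite, fun σ hσ => ?_⟩
        refine hfix n σ fun x => ?_
        refine convert_ext 𝒦 b ((𝒦.act n σ : 𝒦.W n →+ 𝒦.W n).comp (𝒦.κ n)) (𝒦.κ n) (fun j => ?_) x
        exact hLfix j σ fun y hy => hσ y ((le_iSup L j) hy)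
      unram := by
        intro n q hq hqN A hA σ hσ
        exact hfix n σ fun x => 𝒦.unram n q hq hqN A hA σ hσ _
      es := by
        intro n ℓ hℓ hℓN A hA σ hσ
        have hg : Good N p ℓ := ⟨hℓ, hℓN⟩
        simp only [if_pos hg]
        have := convert_mcong 𝒦 b n (Rl n σ * Rl n σ + (ℓ : ℤ) • 1) (𝒦.T ℓ * Rl n σ) (fun x => by
          rw [LinearMap.add_apply, LinearMap.smul_apply, Module.End.mul_apply, Module.End.mul_apply,
            Module.End.one_apply, map_add, hRl, hRl, 𝒦.κ_T n ℓ hℓ hℓN, hRl, map_zsmul,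
            natCast_zsmul]
          exact 𝒦.es n ℓ hℓ hℓN A hA σ hσ _)
        rwa [map_add, map_mul, map_mul, map_smul, map_one] at this
      link := by
        intro P hP
        have h1 : (M.toAlgHom.comp (FreeAlgebra.lift ℤ 𝒦.T)).comp s =
            FreeAlgebra.lift ℤ (fun ℓ => if Good N p ℓ then M (𝒦.T ℓ) else 0) := by
          apply FreeAlgebra.hom_ext
          funext ℓ
          simp only [Function.comp_apply, AlgHom.comp_apply, hs, FreeAlgebra.lift_ι_apply]
          split_ifs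
          · rw [FreeAlgebra.lift_ι_apply]; rfl
          · rw [map_zero, map_zero]
        have h2 : FreeAlgebra.lift ℤ 𝒦.T (s P) = 0 := by
          have := DFunLike.congr_fun h1 P
          rw [hP, AlgHom.comp_apply, AlgHom.comp_apply] at this
          exact (map_eq_zero_iff M M.injective).mp this
        have h3 := 𝒦.link _ h2
        have h4 : (FreeAlgebra.lift ℤ (S31.heckeFam N)).comp s =
            FreeAlgebra.lift ℤ (heckeOp N p) := by
          apply FreeAlgebra.hom_ext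
          funext ℓ
          simp only [Function.comp_apply, AlgHom.comp_apply, hs, FreeAlgebra.lift_ι_apply, heckeOp]
          split_ifs
          · rw [FreeAlgebra.lift_ι_apply]
          · rw [map_zero]
        have := DFunLike.congr_fun h4 P
        rw [AlgHom.comp_apply, h3] at this
        exact this.symm }
  refine ⟨D, b.equivFun.symm, ?_, ?_, ?_⟩
  · intro n σ h
    change 𝒦.κ n (b.equivFun.symm ((M (Rl n σ)).mulVec h)) = _
    rw [hkey, hRl]
  · intro ℓ hℓ h
    change b.equivFun.symm ((if Good N p ℓ then M (𝒦.T ℓ) else 0).mulVec h) = _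
    rw [if_pos hℓ, hkey]
  · intro ℓ hℓ
    exact if_neg hℓ

/-- intertwining of polynomials in matrices and in endomorphisms. -/
theorem lift_intertwine {H : Type*} [AddCommGroup H] {r : ℕ} (e : (Fin r → ℤ) ≃ₗ[ℤ] H)
    (T : ℕ → Matrix (Fin r) (Fin r) ℤ) (t : ℕ → Module.End ℤ H)
    (h : ∀ ℓ x, e ((T ℓ).mulVec x) = t ℓ (e x)) (P : FreeAlgebra ℤ ℕ) (x : Fin r → ℤ) :
    e ((FreeAlgebra.lift ℤ T P).mulVec x) = FreeAlgebra.lift ℤ t P (e x) := by
  induction P using FreeAlgebra.induction generalizing x with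
  | grade0 c =>
    rw [AlgHom.commutes, AlgHom.commutes, Algebra.algebraMap_eq_smul_one,
      Algebra.algebraMap_eq_smul_one, Matrix.smul_mulVec, Matrix.one_mulVec, map_smul]
    rfl
  | grade1 ℓ => rw [FreeAlgebra.lift_ι_apply, FreeAlgebra.lift_ι_apply, h]
  | mul a b ha hb =>
    rw [map_mul, map_mul, ← Matrix.mulVec_mulVec, ha, hb]
    rfl
  | add a b ha hb =>
    rw [map_add, map_add, Matrix.add_mulVec, map_add, ha, hb]
    rfl

/-- the coordinates exist. -/
theorem exists_coord (N p : ℕ) [NeZero N] [NeZero p] (hp : p.Prime) : Nonempty (Coord N p) := by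
  classical
  obtain ⟨D, e, hR, hT, hT0⟩ := exists_adic' hp (kummerSys N p) (isTate_kummerSys N p)
  obtain ⟨e', he'⟩ : ∃ e' : (Fin D.r → ℤ) ≃ₗ[ℤ] S31.Lat N, ∀ x, e' x = e x := ⟨e, fun _ => rfl⟩
  have hR' : ∀ n σ h, NV.kappa N (p ^ n) (e' ((D.R n σ).mulVec h)) =
      GES.rhoV N (p ^ n) σ (NV.kappa N (p ^ n) (e' h)) := by
    intro n σ h
    rw [he', he']
    exact hR n σ h
  have hT' : ∀ ℓ, Good N p ℓ → ∀ h, e' ((D.T ℓ).mulVec h) = S31.latT N ℓ (e' h) := by
    intro ℓ hℓ h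
    rw [he', he']
    exact hT ℓ hℓ h
  refine ⟨{ toAdicESDatum := D
            κ := fun n => (NV.kappa N (p ^ n)).comp e'.toLinearMap.toAddMonoidHom
            κ_surj := ?_
            κ_ker := ?_
            κ_R := ?_
            κ_T := ?_
            κ_trans := ?_
            link_conv := ?_ }⟩
  · intro n x
    obtain ⟨ψ, hψ⟩ := NV.kappa_surjective N (p ^ n) x
    exact ⟨e'.symm ψ, by
      change NV.kappa N (p ^ n) (e' (e'.symm ψ)) = x
      rw [LinearEquiv.apply_symm_apply, hψ]⟩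
  · intro n h h0 i
    obtain ⟨ψ', hψ'⟩ := NV.kappa_ker N (p ^ n) (e' h) h0
    have h1 : h = (p ^ n) • e'.symm ψ' := by
      apply e'.injective
      rw [map_nsmul, LinearEquiv.apply_symm_apply, hψ']
    rw [h1]
    exact ⟨e'.symm ψ' i, by simp⟩
  · intro n σ h
    exact hR' n σ h
  · intro n ℓ hℓ h
    change NV.kappa N (p ^ n) (e' ((D.T ℓ).mulVec h)) = _
    rw [hT' ℓ hℓ, NV.kappa_latT N (p ^ n) ℓ hℓ.1 (fun h1 => hℓ.2 (Dvd.dvd.mul_right h1 p))]
    rfl
  · intro n h
    exact NV.kappa_trans N (pow_dvd_pow p (Nat.le_succ n)) (e' h)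
  · intro P hP
    have h1 : FreeAlgebra.lift ℤ (S31.heckeFam N) (mask (Good N p) P) = 0 := by
      rw [lift_mask]
      exact hP
    have h2 := lat_link_conv N _ h1
    rw [lift_mask] at h2
    have h3 := lift_intertwine e' D.T (fun ℓ => if Good N p ℓ then S31.latT N ℓ else 0) (by
      intro ℓ x
      by_cases hℓ : Good N p ℓ
      · rw [if_pos hℓ, hT' ℓ hℓ]
      · rw [if_neg hℓ, hT0 ℓ hℓ, Matrix.zero_mulVec, map_zero]
        rfl) P
    rw [h2] at h3
    have h4 : ∀ x, (FreeAlgebra.lift ℤ D.T P).mulVec x = 0 := fun x => by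
      apply e'.injective
      rw [h3, map_zero]
      rfl
    ext i j
    have := congrFun (h4 (Pi.single j 1)) i
    simpa using this

end Fermat.Agent.NEW
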