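import Fermat.Agent.GES.Ops

set_option autoImplicit false

/-!
# NEW (degeneracy norms + newness): definitions

Level `N * q`, lower level `N` (no hypothesis on `q` here).  The two degeneracy maps
`α, β : X₀(Nq) → X₀(N)` are, on function fields,

* `heckeAlphaBar Kb N q : F_N → F_{Nq}`  (the inclusion), algebra structure `GES.algA N q`,
  norm `GES.normA N q : F_{Nq} →* F_N`;
* `heckeBetaBar Kb N q : F_N → F_{Nq}`  (`f ↦ f(Q^q)`), algebra structure `NEW.algB N q`,
  norm `NEW.normB N q : F_{Nq} →* F_N`.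

They induce `alphaV N q m, betaV N q m : V_m(Nq) →+ V_m(N)` on Kummer classes
(`= α_*, β_* : J₀(Nq)[m] → J₀(N)[m]`), which commute with Galois (`rhoV`) and with the transition maps.
-/

noncomputable section

namespace Fermat.Agent.NEW

open AlgebraicCurve ModularCurve
open Fermat.Agent.S24 (Kb FN iotaK)
open Fermat.Agent.GES

variable (N q : ℕ) [NeZero N] [NeZero q]

/-- `F_{Nq}` as an algebra over `F_N` via `f ↦ f(Q^q)`. -/
@[reducible] def algB : Algebra (FN N) (FN (N * q)) := algebraAlong (heckeBetaBar Kb N q)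

/-- the norm `F_{Nq} → F_N` along `f ↦ f(Q^q)`. -/
def normB : FN (N * q) →* FN N :=
  letI := algB N q
  Algebra.norm (FN N)

theorem finite_beta : FiniteAlong Kb (heckeBetaBar Kb N q) := by
  have htr : Transcendental Kb (heckeBetaBar Kb N q (S24.jF N)) :=
    fun h => S24.transcendental_jF N
      ((isAlgebraic_algHom_iff (heckeBetaBar Kb N q) (heckeBetaBar Kb N q).injective).mp h)
  have : FiniteDimensional (IntermediateField.adjoin Kb {heckeBetaBar Kb N q (S24.jF N)})
      (FN (N * q)) :=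
    (S24.isFF1_FN (N * q)).finiteDimensional htr
  exact finite_along_of_adjoin (heckeBetaBar Kb N q) (S24.jF N)

theorem finiteDimensional_algB : letI := algB N q; FiniteDimensional (FN N) (FN (N * q)) :=
  finite_beta N q

theorem normB_galF (σ : GQ) (y : FN (N * q)) :
    normB N q (galF (N * q) σ y) = galF N σ (normB N q y) := by
  let _ := algB N q
  have h := Algebra.norm_eq_of_equiv_equiv (galF N σ) (galF (N * q) σ)
    (RingHom.ext fun f => beta_galF N q σ f) y
  exact (RingEquiv.symm_apply_eq _).mp h.symm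

/-- `normA` on units. -/
def normAU : (FN (N * q))ˣ →* (FN N)ˣ := Units.map (normA N q)

/-- `normB` on units. -/
def normBU : (FN (N * q))ˣ →* (FN N)ˣ := Units.map (normB N q)

@[simp] theorem coe_normAU (f : (FN (N * q))ˣ) :
    ((normAU N q f : (FN N)ˣ) : FN N) = normA N q f := rfl

omit [NeZero N] in
@[simp] theorem coe_normBU (f : (FN (N * q))ˣ) :
    ((normBU N q f : (FN N)ˣ) : FN N) = normB N q f := rfl

theorem normAU_mem (m : ℕ) [NeZero m] : ∀ f ∈ DN (N * q) m, normAU N q f ∈ DN N m := by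
  intro f hf v
  let _ := algA N q
  have := isScalarTower_along (heckeAlphaBar Kb N q)
  have := finiteDimensional_algA N q
  exact dvd_ord_norm (K := Kb) (F := FN N) (E := FN (N * q)) m (NeZero.ne m)
    (f : FN (N * q)) f.ne_zero hf v

theorem normBU_mem (m : ℕ) [NeZero m] : ∀ f ∈ DN (N * q) m, normBU N q f ∈ DN N m := by
  intro f hf v
  let _ := algB N q
  have := isScalarTower_along (heckeBetaBar Kb N q)
  have := finiteDimensional_algB N q
  exact dvd_ord_norm (K := Kb) (F := FN N) (E := FN (N * q)) m (NeZero.ne m)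
    (f : FN (N * q)) f.ne_zero hf v

/-- `α_* : V_m(Nq) → V_m(N)`, `[f] ↦ [Norm_α f]`. -/
def alphaV (m : ℕ) [NeZero m] : VN (N * q) m →+ VN N m :=
  Vm.map (normAU N q) (normAU_mem N q m) dvd_rfl

/-- `β_* : V_m(Nq) → V_m(N)`, `[f] ↦ [Norm_β f]`. -/
def betaV (m : ℕ) [NeZero m] : VN (N * q) m →+ VN N m :=
  Vm.map (normBU N q) (normBU_mem N q m) dvd_rfl

@[simp] theorem alphaV_mk (m : ℕ) [NeZero m] (f : DN (N * q) m) :
    alphaV N q m (Vm.mk f) = Vm.mk ⟨normAU N q f, normAU_mem N q m f f.2⟩ := rfl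

@[simp] theorem betaV_mk (m : ℕ) [NeZero m] (f : DN (N * q) m) :
    betaV N q m (Vm.mk f) = Vm.mk ⟨normBU N q f, normBU_mem N q m f f.2⟩ := rfl

/-- `α_* [f] = 0` iff `Norm_α f` is an `m`-th power. -/
theorem alphaV_mk_eq_zero_iff (m : ℕ) [NeZero m] (f : DN (N * q) m) :
    alphaV N q m (Vm.mk f) = 0 ↔ ∃ w : FN N, w ^ m = normA N q ((f : (FN (N * q))ˣ) : FN (N * q)) := by
  rw [alphaV_mk, Vm.mk_eq_zero_iff]
  constructor
  · rintro ⟨w, hw⟩
    exact ⟨w, by simpa using congrArg Units.val hw⟩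
  · rintro ⟨w, hw⟩
    have hw0 : w ≠ 0 := by
      rintro rfl
      rw [zero_pow (NeZero.ne m)] at hw
      exact (normAU N q (f : (FN (N * q))ˣ)).ne_zero hw.symm
    exact ⟨Units.mk0 w hw0, Units.ext (by simpa using hw)⟩

/-- `β_* [f] = 0` iff `Norm_β f` is an `m`-th power. -/
theorem betaV_mk_eq_zero_iff (m : ℕ) [NeZero m] (f : DN (N * q) m) :
    betaV N q m (Vm.mk f) = 0 ↔ ∃ w : FN N, w ^ m = normB N q ((f : (FN (N * q))ˣ) : FN (N * q)) := by
  rw [betaV_mk, Vm.mk_eq_zero_iff]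
  constructor
  · rintro ⟨w, hw⟩
    exact ⟨w, by simpa using congrArg Units.val hw⟩
  · rintro ⟨w, hw⟩
    have hw0 : w ≠ 0 := by
      rintro rfl
      rw [zero_pow (NeZero.ne m)] at hw
      exact (normBU N q (f : (FN (N * q))ˣ)).ne_zero hw.symm
    exact ⟨Units.mk0 w hw0, Units.ext (by simpa using hw)⟩

/-- `α_*` commutes with Galois. -/
theorem alphaV_rhoV (m : ℕ) [NeZero m] (σ : GQ) (x : VN (N * q) m) :
    alphaV N q m (rhoV (N * q) m σ x) = rhoV N m σ (alphaV N q m x) := by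
  obtain ⟨f, rfl⟩ := Vm.mk_surjective x
  rw [rhoV_mk, alphaV_mk, alphaV_mk, rhoV_mk]
  exact congrArg Vm.mk (Subtype.ext (Units.ext (normA_galF N q σ _)))

/-- `β_*` commutes with Galois. -/
theorem betaV_rhoV (m : ℕ) [NeZero m] (σ : GQ) (x : VN (N * q) m) :
    betaV N q m (rhoV (N * q) m σ x) = rhoV N m σ (betaV N q m x) := by
  obtain ⟨f, rfl⟩ := Vm.mk_surjective x
  rw [rhoV_mk, betaV_mk, betaV_mk, rhoV_mk]
  exact congrArg Vm.mk (Subtype.ext (Units.ext (normB_galF N q σ _)))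

/-- `α_*` commutes with the transition maps. -/
theorem alphaV_trans {m m' : ℕ} [NeZero m] [NeZero m'] (hm : m' ∣ m) (x : VN (N * q) m) :
    alphaV N q m' (Vm.trans Kb (FN (N * q)) hm x) = Vm.trans Kb (FN N) hm (alphaV N q m x) := by
  obtain ⟨f, rfl⟩ := Vm.mk_surjective x
  rw [Vm.trans_mk, alphaV_mk, alphaV_mk, Vm.trans_mk]

/-- `β_*` commutes with the transition maps. -/
theorem betaV_trans {m m' : ℕ} [NeZero m] [NeZero m'] (hm : m' ∣ m) (x : VN (N * q) m) :
    betaV N q m' (Vm.trans Kb (FN (N * q)) hm x) = Vm.trans Kb (FN N) hm (betaV N q m x) := by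
  obtain ⟨f, rfl⟩ := Vm.mk_surjective x
  rw [Vm.trans_mk, betaV_mk, betaV_mk, Vm.trans_mk]

end Fermat.Agent.NEW
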