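import Fermat.Agent.S23
import Fermat.Agent.S49.Hecke
import Fermat.Agent.S30.Eigen
import Fermat.Agent.S31.Defs
import Fermat.Agent.NEW.Mask
import Fermat.Prelude.Def_CuspForm_HeckeLocal

set_option autoImplicit false

/-!
# NEW task N-EigS2 : a system of eigenvalues compatible with all `ℤ`-relations between the Hecke operators on `S₂(Γ₀(N))`
occurs in `S₂(Γ₀(N))`

(This is FALSE for a general commuting family on a complex vector space: it uses the integral structure.)

SKETCH.  `L := CuspForm.intLattice N 2` is a finite free `ℤ`-module (Prelude `CuspForm.intLattice.moduleFinite`,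
`CuspForm.intLattice.moduleFree` in `Def_CuspForm_HeckeLocal`), stable under `heckeTLin` (Prelude
`CuspForm.mem_intLattice_of_mem_heckeAlgebra`, see `S49.phi_mem_lattice`), and spans `S₂` over `ℂ`
(`Fermat.Agent.S23.result N`; see how `S49.finite_TT` uses `HasIntegralBasis`; look at the Prelude definition of
`HasIntegralStructure` and at `CuspForm.latticeRestrict_injective`).
1. Basis `e : Fin d → L`; integer matrices `Tm ℓ := if G ℓ then (matrix of heckeFam N ℓ on L) else 0`; they commute
   (`heckeAlgebra N 2 ∅` is commutative).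
2. `lift Tm P = 0 ⟹ lift (heckeFam N) (mask G P) = 0` (it vanishes on `L`, hence on its `ℂ`-span) `⟹ lift a P = 0`.
3. `S30.exists_eigenvector Tm _ a _` gives `0 ≠ v ∈ ℂ ^ d` with `Tm ℓ v = a ℓ v`; `f := ∑ v i • e i`; `heckeFam N ℓ f = a ℓ • f` for `G ℓ`.
4. `f ≠ 0`: a `ℤ`-basis of `L` is `ℂ`-linearly independent.  Lemma IND: `e i : X → ℤ` `ℤ`-independent, `∑ c i • e i = 0` with
   `c i ∈ ℂ`; the subgroup of `ℂ` generated by the `c i` is free with basis `u j` (`Module.free_of_finite_type_torsion_free'`, as in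
   `S31.span_of_parabolic` or `NEW.flat_decomp`), `c i = ∑ n i j u j`; then `∑_i n i j e i = 0` for all `j`, so `n = 0`.
   Here `X = ℕ` and `e i ↦` its integer `q`-coefficients (`S49.mem_intLattice_iff'`, `S49.eq_zero_of_qCoeff`, `S49.qCoeff_add'`, `qCoeff_smul'`).
-/

namespace Fermat.Agent.NEW

open CongruenceSubgroup ModularFormClass
open Fermat.Agent.S49

/-- IND: `ℤ`-independent integer valued functions are `ℂ`-independent. -/
theorem ind_int_complex {d : ℕ} {X : Type*} (E : Fin d → X → ℤ)
    (hE : ∀ m : Fin d → ℤ, (∀ x, ∑ i, m i * E i x = 0) → m = 0) (c : Fin d → ℂ)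
    (hc : ∀ x, ∑ i, c i * (E i x : ℂ) = 0) : c = 0 := by
  classical
  let Y : Submodule ℤ ℂ := Submodule.span ℤ (Set.range c)
  have hfin : Module.Finite ℤ Y := Module.Finite.span_of_finite ℤ (Set.finite_range c)
  have hfree : Module.Free ℤ Y := Module.free_of_finite_type_torsion_free'
  let u := Module.finBasis ℤ Y
  have hcY : ∀ i, c i ∈ Y := fun i => Submodule.subset_span ⟨i, rfl⟩
  let n : Fin d → Fin (Module.finrank ℤ Y) → ℤ := fun i j => u.repr ⟨c i, hcY i⟩ j
  have hcn : ∀ i, c i = ∑ j, (n i j : ℂ) * (u j : ℂ) := by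
    intro i
    have h1 := u.sum_repr ⟨c i, hcY i⟩
    have h2 : ((∑ j, (u.repr ⟨c i, hcY i⟩) j • u j : Y) : ℂ) = c i := congrArg (Subtype.val) h1
    rw [Submodule.coe_sum] at h2
    simp only [Submodule.coe_smul, zsmul_eq_mul] at h2
    exact h2.symm
  have hz : ∀ x j, ∑ i, n i j * E i x = 0 := by
    intro x
    have h1 : ∑ j, (∑ i, n i j * E i x) • u j = 0 := by
      apply Subtype.ext
      have h2 := hc x
      simp only [hcn] at h2
      simp only [Submodule.coe_sum, Submodule.coe_smul, zsmul_eq_mul, Submodule.coe_zero]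
      rw [← h2]
      simp only [Finset.sum_mul, Int.cast_sum, Int.cast_mul]
      rw [Finset.sum_comm]
      refine Finset.sum_congr rfl fun i _ => Finset.sum_congr rfl fun j _ => ?_
      ring
    exact fun j => Fintype.linearIndependent_iff.1 u.linearIndependent _ h1 j
  funext i
  rw [hcn i]
  have : ∀ j, n i j = 0 := fun j => by
    have := hE (fun i => n i j) (fun x => hz x j)
    exact congrFun this i
  simp [this]

open Classical in
/-- the masked Hecke operators as elements of the full Hecke algebra. -/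
noncomputable def tmask (N : ℕ) [NeZero N] (G : ℕ → Prop) (ℓ : ℕ) : TT N :=
  if h : G ℓ ∧ ℓ.Prime ∧ ¬ ℓ ∣ N then CuspForm.heckeAlgebra.T h.2.1 h.2.2 (Set.notMem_empty ℓ) else 0

theorem phi_tmask (N : ℕ) [NeZero N] (G : ℕ → Prop) [DecidablePred G] (ℓ : ℕ) :
    phi N (tmask N G ℓ) = if G ℓ then S31.heckeFam N ℓ else 0 := by
  unfold tmask S31.heckeFam
  by_cases hG : G ℓ
  · by_cases h : ℓ.Prime ∧ ¬ ℓ ∣ N
    · rw [dif_pos ⟨hG, h⟩, if_pos hG, dif_pos h]
      rfl
    · rw [dif_neg (fun hc => h hc.2), if_pos hG, dif_neg h, map_zero]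
  · rw [dif_neg (fun hc => hG hc.1), if_neg hG, map_zero]

theorem phi_lift_tmask (N : ℕ) [NeZero N] (G : ℕ → Prop) (P : FreeAlgebra ℤ ℕ) :
    phi N (FreeAlgebra.lift ℤ (tmask N G) P) = FreeAlgebra.lift ℤ (S31.heckeFam N) (mask G P) := by
  classical
  rw [lift_mask]
  have h : ((phi N).toIntAlgHom).comp (FreeAlgebra.lift ℤ (tmask N G)) =
      FreeAlgebra.lift ℤ (fun ℓ => if G ℓ then S31.heckeFam N ℓ else 0) := by
    apply FreeAlgebra.hom_ext
    funext ℓ
    simp only [Function.comp_apply, AlgHom.comp_apply, FreeAlgebra.lift_ι_apply]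
    exact phi_tmask N G ℓ
  exact DFunLike.congr_fun h P

theorem exists_eigenvector_S2 (N : ℕ) [NeZero N] (G : ℕ → Prop) (a : ℕ → ℂ)
    (h : ∀ P : FreeAlgebra ℤ ℕ, FreeAlgebra.lift ℤ (S31.heckeFam N) (mask G P) = 0 →
      FreeAlgebra.lift ℤ a P = 0) :
    ∃ f : CuspForm (Gamma0 N) 2, f ≠ 0 ∧ ∀ ℓ, G ℓ → S31.heckeFam N ℓ f = a ℓ • f := by
  classical
  have hfin := CuspForm.intLattice.moduleFinite N
  have hfree := CuspForm.intLattice.moduleFree N
  let b := Module.finBasis ℤ (CuspForm.intLattice N 2)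
  let act := CuspForm.latticeActionHom N (∅ : Set ℕ)
  let Tm : ℕ → Matrix (Fin _) (Fin _) ℤ := fun ℓ => LinearMap.toMatrix b b (act (tmask N G ℓ))
  have hlift : ∀ P : FreeAlgebra ℤ ℕ, FreeAlgebra.lift ℤ Tm P =
      LinearMap.toMatrix b b (act (FreeAlgebra.lift ℤ (tmask N G) P)) := by
    intro P
    have h1 : ((LinearMap.toMatrixAlgEquiv b).toAlgHom.comp (act.toIntAlgHom)).comp
        (FreeAlgebra.lift ℤ (tmask N G)) = FreeAlgebra.lift ℤ Tm := by
      apply FreeAlgebra.hom_ext
      funext ℓ
      simp only [Function.comp_apply, AlgHom.comp_apply, FreeAlgebra.lift_ι_apply]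
      rfl
    exact (DFunLike.congr_fun h1 P).symm
  obtain ⟨v, hv0, hv⟩ := S30.exists_eigenvector Tm (by
      intro ℓ ℓ'
      simp only [Tm]
      rw [← LinearMap.toMatrix_mul, ← LinearMap.toMatrix_mul, ← map_mul, ← map_mul, mul_comm]) a (by
      intro P hP
      apply h
      rw [hlift] at hP
      have h1 : act (FreeAlgebra.lift ℤ (tmask N G) P) = 0 := by
        apply (LinearMap.toMatrix b b).injective
        rw [hP, map_zero]
      have h2 : FreeAlgebra.lift ℤ (tmask N G) P = 0 := by
        apply CuspForm.latticeActionHom_injective N ∅ (S23.result N)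
        rw [h1, map_zero]
      rw [← phi_lift_tmask, h2, map_zero])
  refine ⟨∑ i, v i • (b i : CuspForm (Gamma0 N) 2), ?_, ?_⟩
  · intro hf0
    apply hv0
    have hint : ∀ i n, ∃ m : ℤ, qCoeff (b i : CuspForm (Gamma0 N) 2) n = (m : ℂ) := fun i =>
      (mem_intLattice_iff' _).1 (b i).2
    choose E hE using hint
    -- `qCoeff` of finite sums
    have hsum : ∀ (c : Fin _ → ℂ) (n : ℕ),
        qCoeff ⇑(∑ i, c i • (b i : CuspForm (Gamma0 N) 2) : CuspForm (Gamma0 N) 2) n =
          ∑ i, c i * (E i n : ℂ) := by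
      intro c n
      let qL : CuspForm (Gamma0 N) 2 →ₗ[ℂ] ℂ :=
        { toFun := fun f => qCoeff f n
          map_add' := fun f g => qCoeff_add' f g n
          map_smul' := fun c f => qCoeff_smul' c f n }
      have : qL (∑ i, c i • (b i : CuspForm (Gamma0 N) 2)) = ∑ i, c i * (E i n : ℂ) := by
        rw [map_sum]
        refine Finset.sum_congr rfl fun i _ => ?_
        rw [map_smul, smul_eq_mul]
        congr 1
        exact hE i n
      exact this
    refine ind_int_complex E ?_ v ?_
    · intro m hm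
      have h1 : ∑ i, m i • b i = 0 := by
        apply Subtype.ext
        rw [Submodule.coe_sum]
        simp only [Submodule.coe_smul, Submodule.coe_zero]
        apply eq_zero_of_qCoeff
        intro n
        have h2 := hsum (fun i => (m i : ℂ)) n
        simp only [Int.cast_smul_eq_zsmul] at h2
        rw [h2]
        have h3 := hm n
        exact_mod_cast h3
      funext i
      exact Fintype.linearIndependent_iff.1 b.linearIndependent _ h1 i
    · intro n
      rw [← hsum, hf0]
      have := qCoeff_smul' 0 (0 : CuspForm (Gamma0 N) 2) n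
      rwa [zero_smul, zero_mul] at this
  · intro ℓ hG
    have e1 : S31.heckeFam N ℓ = phi N (tmask N G ℓ) := by rw [phi_tmask, if_pos hG]
    have e2 : ∀ i, phi N (tmask N G ℓ) (b i : CuspForm (Gamma0 N) 2) =
        ∑ j, ((Tm ℓ j i : ℤ) : ℂ) • (b j : CuspForm (Gamma0 N) 2) := by
      intro i
      have h1 : ∑ j, Tm ℓ j i • b j = act (tmask N G ℓ) (b i) := by
        simp only [Tm, LinearMap.toMatrix_apply]
        exact b.sum_repr _
      have h2 := congrArg Subtype.val h1
      rw [Submodule.coe_sum] at h2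
      simp only [Submodule.coe_smul] at h2
      have h3 : ((act (tmask N G ℓ) (b i) : CuspForm.intLattice N 2) : CuspForm (Gamma0 N) 2) =
          phi N (tmask N G ℓ) (b i : CuspForm (Gamma0 N) 2) := rfl
      rw [← h3, ← h2]
      refine Finset.sum_congr rfl fun j _ => ?_
      rw [Int.cast_smul_eq_zsmul]
    rw [e1, map_sum, Finset.smul_sum]
    simp only [map_smul, e2, Finset.smul_sum, smul_smul]
    rw [Finset.sum_comm]
    refine Finset.sum_congr rfl fun j _ => ?_
    rw [← Finset.sum_smul]
    congr 1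
    have h4 := congrFun (hv ℓ) j
    simp only [Matrix.mulVec, dotProduct, Matrix.map_apply, eq_intCast, Pi.smul_apply,
      smul_eq_mul] at h4
    rw [← h4]
    refine Finset.sum_congr rfl fun i _ => ?_
    ring

end Fermat.Agent.NEW
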