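import Mathlib

set_option autoImplicit false

/-!
# NEW: flat base change `ℤ → 𝒪` for congruence conditions

`𝒪` a domain of characteristic zero, `E`, `X` integer matrices (`E` may have infinitely many rows),
`m ≠ 0`.  If every integer vector `h` with `E h ≡ 0 (m)` satisfies `X h ≡ 0 (m)`, then every vector
`v ∈ 𝒪 ^ r` with `E v ∈ m 𝒪` satisfies `X v ∈ m 𝒪`.  More precisely `v` is an `𝒪`-linear combination of
integer vectors `h` with `E h ≡ 0 (m)`.
-/

namespace Fermat.Agent.NEW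

/-- decomposition of a solution over `𝒪` into integral solutions. -/
theorem flat_decomp {𝒪 : Type*} [CommRing 𝒪] [IsDomain 𝒪] [CharZero 𝒪] {r : ℕ} {ι : Type*}
    (m : ℕ) (hm : m ≠ 0) (E : Matrix ι (Fin r) ℤ) (v : Fin r → 𝒪)
    (hv : ∀ i, (m : 𝒪) ∣ ((E.map (Int.castRingHom 𝒪)).mulVec v) i) :
    ∃ (k : ℕ) (y : Fin k → 𝒪) (H : Fin k → Fin r → ℤ),
      (∀ j, v j = ∑ t, ((H t j : ℤ) : 𝒪) * y t) ∧ ∀ t i, (m : ℤ) ∣ (E.mulVec (H t)) i := by
  classical
  have hm𝒪 : (m : 𝒪) ≠ 0 := by exact_mod_cast hm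
  let Y : Submodule ℤ 𝒪 := Submodule.span ℤ (Set.range v)
  let μ : 𝒪 →ₗ[ℤ] 𝒪 := (m : ℤ) • LinearMap.id
  have hμ : ∀ x, μ x = (m : 𝒪) * x := fun x => by simp [μ]
  let Y' : Submodule ℤ 𝒪 := Y.comap μ
  have hYfin : Module.Finite ℤ Y := Module.Finite.span_of_finite ℤ (Set.finite_range v)
  let φ : Y' →ₗ[ℤ] Y := μ.restrict (fun x hx => hx)
  have hφ : Function.Injective φ := by
    intro a b hab
    have h1 : μ a = μ b := congrArg Subtype.val hab
    rw [hμ, hμ] at h1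
    exact Subtype.ext (mul_left_cancel₀ hm𝒪 h1)
  have hY'fin : Module.Finite ℤ Y' := Module.Finite.of_injective φ hφ
  have hfree : Module.Free ℤ Y' := Module.free_of_finite_type_torsion_free'
  have hvY : ∀ j, v j ∈ Y' := by
    intro j
    change μ (v j) ∈ Y
    exact Y.smul_mem _ (Submodule.subset_span ⟨j, rfl⟩)
  choose u hu using hv
  have huY : ∀ i, u i ∈ Y' := by
    intro i
    change μ (u i) ∈ Y
    rw [hμ, ← hu i, Matrix.mulVec, dotProduct]
    refine Y.sum_mem fun j _ => ?_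
    rw [Matrix.map_apply, eq_intCast, ← zsmul_eq_mul]
    exact Y.smul_mem _ (Submodule.subset_span ⟨j, rfl⟩)
  let b := Module.finBasis ℤ Y'
  refine ⟨Module.finrank ℤ Y', fun t => (b t : 𝒪), fun t j => b.repr ⟨v j, hvY j⟩ t, ?_, ?_⟩
  · intro j
    have h1 := b.sum_repr ⟨v j, hvY j⟩
    have h2 : ((∑ i, (b.repr ⟨v j, hvY j⟩) i • b i : Y') : 𝒪) = v j :=
      congrArg (Subtype.val : Y' → 𝒪) h1
    rw [← h2, Submodule.coe_sum]
    refine Finset.sum_congr rfl fun t _ => ?_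
    rw [Submodule.coe_smul, zsmul_eq_mul]
  · intro t i
    have h1 : ∑ j, E i j • (⟨v j, hvY j⟩ : Y') = (m : ℤ) • (⟨u i, huY i⟩ : Y') := by
      apply Subtype.ext
      rw [Submodule.coe_sum, Submodule.coe_smul]
      have h3 := hu i
      rw [Matrix.mulVec, dotProduct] at h3
      simp only [Submodule.coe_smul, zsmul_eq_mul, Int.cast_natCast]
      rw [← h3]
      refine Finset.sum_congr rfl fun j _ => ?_
      rw [Matrix.map_apply, eq_intCast]
    have h2 := congrArg (fun z => b.repr z t) h1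
    simp only [map_sum, map_smul, Finsupp.coe_finsetSum, Finset.sum_apply, Finsupp.smul_apply,
      smul_eq_mul] at h2
    rw [Matrix.mulVec, dotProduct, h2]
    exact Dvd.intro _ rfl

/-- flat base change of an implication between congruences. -/
theorem flat_transfer {𝒪 : Type*} [CommRing 𝒪] [IsDomain 𝒪] [CharZero 𝒪] {r : ℕ} {ι κ : Type*}
    (m : ℕ) (hm : m ≠ 0) (E : Matrix ι (Fin r) ℤ) (X : Matrix κ (Fin r) ℤ)
    (h : ∀ h : Fin r → ℤ, (∀ i, (m : ℤ) ∣ (E.mulVec h) i) → ∀ k, (m : ℤ) ∣ (X.mulVec h) k)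
    (v : Fin r → 𝒪) (hv : ∀ i, (m : 𝒪) ∣ ((E.map (Int.castRingHom 𝒪)).mulVec v) i) (k : κ) :
    (m : 𝒪) ∣ ((X.map (Int.castRingHom 𝒪)).mulVec v) k := by
  obtain ⟨n, y, H, hvH, hH⟩ := flat_decomp m hm E v hv
  have h1 : ((X.map (Int.castRingHom 𝒪)).mulVec v) k =
      ∑ t, (((X.mulVec (H t)) k : ℤ) : 𝒪) * y t := by
    simp only [Matrix.mulVec, dotProduct, Matrix.map_apply, eq_intCast, hvH, Finset.mul_sum,
      Int.cast_sum, Int.cast_mul, Finset.sum_mul]
    rw [Finset.sum_comm]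
    refine Finset.sum_congr rfl fun t _ => Finset.sum_congr rfl fun j _ => ?_
    ring
  rw [h1]
  refine Finset.dvd_sum fun t _ => Dvd.dvd.mul_right ?_ _
  obtain ⟨c, hc⟩ := h (H t) (hH t) k
  rw [hc]
  exact ⟨(c : 𝒪), by push_cast; ring⟩

end Fermat.Agent.NEW
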