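import Fermat.Agent.NEW.Defs
import Fermat.Agent.GES.Relation
import Fermat.Agent.S54.Frob

set_option autoImplicit false

/-!
# NEW: the degeneracy norms commute with the good Hecke operators

No geometry: by the Eichler-Shimura relation `T_ℓ = σ + ℓ σ⁻¹` on `V_m` (for `σ` a Frobenius lift at
`ℓ ∤ N m`) at both levels, and `α_*`, `β_*` commute with Galois.
-/

noncomputable section

namespace Fermat.Agent.NEW

open AlgebraicCurve ModularCurve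
open Fermat.Agent.S24 (Kb FN iotaK)
open Fermat.Agent.GES

/-- `T_ℓ = σ + ℓ σ⁻¹` on `V_m(N)`. -/
theorem TV_eq_frob (N m ℓ : ℕ) [NeZero N] [NeZero m] (hℓ : ℓ.Prime) (hℓNm : ¬ ℓ ∣ N * m)
    (A : ValuationSubring Kb) (hA : A.LiesOverPrime ℓ) (σ : GQ) (hσ : A.IsFrobeniusAt σ ℓ)
    (x : VN N m) : TV N m ℓ x = rhoV N m σ x + ℓ • rhoV N m σ⁻¹ x := by
  have h := congrArg (fun f : Module.End (ZMod m) (VN N m) => f (rhoV N m σ⁻¹ x))
    (es_relation N m ℓ hℓ hℓNm A hA σ hσ)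
  simp only [LinearMap.add_apply, LinearMap.sub_apply, Module.End.mul_apply,
    LinearMap.smul_apply, Module.End.one_apply, LinearMap.zero_apply,
    Nat.cast_smul_eq_nsmul] at h
  have h2 : rhoV N m σ (rhoV N m σ⁻¹ x) = x := by
    rw [← Module.End.mul_apply, ← map_mul, mul_inv_cancel, map_one, Module.End.one_apply]
  rw [h2] at h
  rw [eq_comm, ← sub_eq_zero, ← h]
  abel

theorem alphaV_TV (N q m ℓ : ℕ) [NeZero N] [NeZero q] [NeZero m] (hℓ : ℓ.Prime)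
    (h : ¬ ℓ ∣ N * q * m) (x : VN (N * q) m) :
    alphaV N q m (TV (N * q) m ℓ x) = TV N m ℓ (alphaV N q m x) := by
  obtain ⟨A, σ, hA, hσ⟩ := S54.exists_frob ℓ hℓ
  have h' : ¬ ℓ ∣ N * m := fun hd => h (by
    rcases (Nat.Prime.dvd_mul hℓ).1 hd with h1 | h1
    · exact Dvd.dvd.mul_right (Dvd.dvd.mul_right h1 q) m
    · exact Dvd.dvd.mul_left h1 _)
  rw [TV_eq_frob (N * q) m ℓ hℓ h A hA σ hσ, TV_eq_frob N m ℓ hℓ h' A hA σ hσ, map_add, map_nsmul,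
    alphaV_rhoV, alphaV_rhoV]

theorem betaV_TV (N q m ℓ : ℕ) [NeZero N] [NeZero q] [NeZero m] (hℓ : ℓ.Prime)
    (h : ¬ ℓ ∣ N * q * m) (x : VN (N * q) m) :
    betaV N q m (TV (N * q) m ℓ x) = TV N m ℓ (betaV N q m x) := by
  obtain ⟨A, σ, hA, hσ⟩ := S54.exists_frob ℓ hℓ
  have h' : ¬ ℓ ∣ N * m := fun hd => h (by
    rcases (Nat.Prime.dvd_mul hℓ).1 hd with h1 | h1
    · exact Dvd.dvd.mul_right (Dvd.dvd.mul_right h1 q) m
    · exact Dvd.dvd.mul_left h1 _)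
  rw [TV_eq_frob (N * q) m ℓ hℓ h A hA σ hσ, TV_eq_frob N m ℓ hℓ h' A hA σ hσ, map_add, map_nsmul,
    betaV_rhoV, betaV_rhoV]

end Fermat.Agent.NEW
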