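import Fermat.Agent.S22

set_option autoImplicit false

/-!
# NEW task N-IotaInj : a homomorphism from the ring of Hecke eigenvalues to a domain of characteristic zero is injective

SKETCH.  `R := chig.range ⊆ ℂ` is a domain, integral over `ℤ`: `heckeAlgebra M 2 S` is a finite `ℤ`-module
(`Fermat.Agent.S22.result M 2 S`), hence every element is integral (`Algebra.IsIntegral.of_finite`), and integrality passes
to the image (`map_isIntegral_int` / `IsIntegral.map`).  `ker iota` is a prime ideal (`RingHom.ker_isPrime`, `O'` a domain)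
with `(ker iota).comap (algebraMap ℤ R) = ⊥` (`O'` has characteristic zero: `iota (n : R) = (n : O')`).
`Ideal.eq_bot_of_comap_eq_bot` (needs `Algebra.IsIntegral ℤ R`, `IsDomain R`) gives `ker iota = ⊥`;
`(RingHom.injective_iff_ker_eq_bot iota).mpr`.
Elementary alternative: `x ≠ 0` integral, minimal degree monic relation has nonzero constant term `c₀ ∈ ℤ`,
`c₀ = - x * (…)`, so `iota x = 0` would give `(c₀ : O') = 0`.
-/

namespace Fermat.Agent.NEW

theorem iota_injective {M : ℕ} [NeZero M] (S : Set ℕ) (chig : CuspForm.heckeAlgebra M 2 S →+* ℂ)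
    {O' : Type*} [CommRing O'] [IsDomain O'] [CharZero O'] (iota : chig.range →+* O') :
    Function.Injective iota := by
  have hfin : Module.Finite ℤ (CuspForm.heckeAlgebra M 2 S) := Fermat.Agent.S22.result M 2 S
  have hint : Algebra.IsIntegral ℤ (CuspForm.heckeAlgebra M 2 S) := Algebra.IsIntegral.of_finite _ _
  have hintR : Algebra.IsIntegral ℤ chig.range := by
    constructor
    rintro ⟨x, y, rfl⟩
    have h1 : IsIntegral ℤ y := hint.isIntegral y
    exact map_isIntegral_int chig.rangeRestrict h1
  have hprime : (RingHom.ker iota).IsPrime := RingHom.ker_isPrime iota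
  rw [RingHom.injective_iff_ker_eq_bot]
  apply Ideal.eq_bot_of_comap_eq_bot (R := ℤ)
  rw [eq_bot_iff]
  intro n hn
  rw [Ideal.mem_comap, RingHom.mem_ker, eq_intCast, map_intCast] at hn
  simpa using hn

end Fermat.Agent.NEW
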