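import Fermat.Agent.S30.Cong

set_option autoImplicit false

/-!
# NEW: `p`-adic limits of integer matrices in a complete DVR `𝒪 ∋ p`

The limit `L` of a `p`-adically coherent sequence of integer matrices is congruent to the `k`-th term modulo `p ^ k 𝒪`
(and not only modulo `𝔪 ^ k`).
-/

namespace Fermat.Agent.NEW

open IsLocalRing Fermat.Agent.S30

/-- in a DVR of characteristic zero some power of the maximal ideal is contained in `(c)`, `c ≠ 0`. -/
theorem exists_pow_le_span {𝒪 : Type*} [CommRing 𝒪] [IsDomain 𝒪] [IsDiscreteValuationRing 𝒪]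
    (c : 𝒪) (hc : c ≠ 0) : ∃ e : ℕ, maximalIdeal 𝒪 ^ e ≤ Ideal.span {c} := by
  obtain ⟨ϖ, hϖ⟩ := IsDiscreteValuationRing.exists_irreducible 𝒪
  obtain ⟨e, u, rfl⟩ := IsDiscreteValuationRing.eq_unit_mul_pow_irreducible hc hϖ
  refine ⟨e, ?_⟩
  rw [hϖ.maximalIdeal_eq, Ideal.span_singleton_pow, Ideal.span_singleton_le_span_singleton]
  exact ⟨(↑u⁻¹ : 𝒪), by rw [mul_comm (u : 𝒪), mul_assoc, Units.mul_inv, mul_one]⟩

theorem mcong_of_le {p : ℕ} {m n : Type*} (a : ℕ → Matrix m n ℤ)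
    (h : ∀ k, MCong (pIdeal p k) (a (k + 1)) (a k)) {k k' : ℕ} (hk : k ≤ k') :
    MCong (pIdeal p k) (a k') (a k) := by
  induction k', hk using Nat.le_induction with
  | base => exact MCong.refl _
  | succ j hj ih => exact ((h j).mono (pIdeal_mono p hj)).trans ih

/-- the `p`-adic limit. -/
theorem exists_plim {𝒪 : Type*} [CommRing 𝒪] [IsDomain 𝒪] [IsDiscreteValuationRing 𝒪]
    [IsAdicComplete (maximalIdeal 𝒪) 𝒪] [CharZero 𝒪] {p : ℕ} (hp : (p : 𝒪) ∈ maximalIdeal 𝒪)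
    (hp0 : p ≠ 0) {m n : Type*} (a : ℕ → Matrix m n ℤ)
    (h : ∀ k, MCong (pIdeal p k) (a (k + 1)) (a k)) :
    ∃ L : Matrix m n 𝒪, ∀ k,
      MCong (Ideal.span {(p : 𝒪) ^ k}) L ((a k).map (Int.castRingHom 𝒪)) := by
  obtain ⟨L, hL⟩ := exists_mlim (maximalIdeal 𝒪) (fun k => (a k).map (Int.castRingHom 𝒪))
    (fun k => (h k).map _ (pIdeal_map_le hp k))
  refine ⟨L, fun k => ?_⟩
  have hc : (p : 𝒪) ^ k ≠ 0 := pow_ne_zero _ (by exact_mod_cast hp0)
  obtain ⟨e, he⟩ := exists_pow_le_span ((p : 𝒪) ^ k) hc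
  have h1 : MCong (Ideal.span {(p : 𝒪) ^ k}) L ((a (max k e)).map (Int.castRingHom 𝒪)) :=
    (hL (max k e)).mono ((Ideal.pow_le_pow_right (le_max_right k e)).trans he)
  have h2 : MCong (Ideal.span {(p : 𝒪) ^ k}) ((a (max k e)).map (Int.castRingHom 𝒪))
      ((a k).map (Int.castRingHom 𝒪)) :=
    (mcong_of_le a h (le_max_left k e)).map _ (by
      rw [pIdeal, Ideal.map_span, Set.image_singleton]
      simp)
  exact h1.trans h2

end Fermat.Agent.NEW
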