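import Fermat.Agent.S30.Main

set_option autoImplicit false

/-!
# NEW: `S30.main`, exposing the big representation `ρ`, the trace function `t`, the determinant `d` and the quadratic
relation on the eigenmodule `W`
-/

open Polynomial IsLocalRing

namespace Fermat.Agent.NEW

open Fermat.Agent.S30

theorem main' {N p : ℕ} [NeZero N] [Fact p.Prime] (D : AdicESDatum N p) (S : Finset ℕ)
    (hpS : p ∈ S) (𝒪 : Type) [CommRing 𝒪] [IsDomain 𝒪] [IsDiscreteValuationRing 𝒪]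
    [IsAdicComplete (maximalIdeal 𝒪) 𝒪] [CharZero 𝒪] (hp : (p : 𝒪) ∈ maximalIdeal 𝒪)
    (χ : CuspForm.heckeAlgebra N 2 (↑S : Set ℕ) →+* 𝒪)
    (ρ : GQ →* Matrix (Fin D.r) (Fin D.r) 𝒪) (hρ : IsAdicRep N p (D.TO 𝒪) ρ) :
    ∃ (t : GQ → 𝒪) (d : GQ →* 𝒪) (ρ₂ : GaloisRepAdic 𝒪),
      IsCyclo p d ∧
      (∀ g, ∀ v ∈ eigenModule N S (D.TO 𝒪) (eigSys χ),
        (ρ g).mulVec ((ρ g).mulVec v) - t g • (ρ g).mulVec v + d g • v = 0) ∧
      (∀ g, LinearMap.charpoly (ρ₂.ρ g) = X ^ 2 - C (t g) * X + C (d g)) ∧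
      (∃ v₀ ∈ eigenModule N S (D.TO 𝒪) (eigSys χ), v₀ ≠ 0) ∧
      (∀ g, ∀ v ∈ eigenModule N S (D.TO 𝒪) (eigSys χ),
        (ρ g).mulVec v ∈ eigenModule N S (D.TO 𝒪) (eigSys χ)) ∧
      (∀ (s : 𝒪) (v : Fin D.r → 𝒪), s ≠ 0 → s • v ∈ eigenModule N S (D.TO 𝒪) (eigSys χ) →
        v ∈ eigenModule N S (D.TO 𝒪) (eigSys χ)) ∧
      (∀ (ℓ : ℕ) (hℓ : ℓ.Prime) (hℓN : ¬ ℓ ∣ N) (hℓS : ℓ ∉ (↑S : Set ℕ)),
        ∀ A : ValuationSubring (AlgebraicClosure ℚ), A.LiesOverPrime ℓ →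
          ∀ σ : AlgebraicClosure ℚ ≃ₐ[ℚ] AlgebraicClosure ℚ, A.IsFrobeniusAt σ ℓ →
            LinearMap.charpoly (ρ₂.ρ σ) =
              X ^ 2 - C (χ (CuspForm.heckeAlgebra.T hℓ hℓN hℓS)) * X + C ((ℓ : 𝒪))) ∧
      (∀ q : ℕ, q.Prime → ¬ q ∣ N → q ≠ p → ρ₂.IsUnramifiedAt q) := by
  obtain ⟨d, hd⟩ := exists_cyclo p 𝒪 hp
  set a := eigSys χ with ha
  set W := eigenModule N S (D.TO 𝒪) a with hWdef
  obtain ⟨v₀, hv₀, i₀, hi₀⟩ := exists_primitive_eigenvector Fact.out D S hpS χ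
  have hv₀ne : v₀ ≠ 0 := by
    intro h
    rw [h, Pi.zero_apply] at hi₀
    exact zero_ne_one hi₀
  have hW : W ≠ ⊥ := fun h => hv₀ne ((Submodule.eq_bot_iff W).mp h v₀ hv₀)
  have hstab : ∀ g, ∀ v ∈ W, (ρ g).mulVec v ∈ W := by
    intro g v hv ℓ h1 h2 h3
    rw [Matrix.mulVec_mulVec, ← hρ.comm, ← Matrix.mulVec_mulVec, hv ℓ h1 h2 h3,
      Matrix.mulVec_smul]
  have hsat : ∀ (s : 𝒪) (v : Fin D.r → 𝒪), s ≠ 0 → s • v ∈ W → v ∈ W := by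
    intro s v hs hv ℓ h1 h2 h3
    have := hv ℓ h1 h2 h3
    rw [Matrix.mulVec_smul, smul_comm] at this
    exact smul_right_injective _ hs this
  choose t ht using exact_relation ρ d W v₀ hv₀ i₀ hi₀
    (fun g n => approx_relation hρ hd S hpS (NeZero.ne N) a g n)
  obtain ⟨M, hMt, hMd, hMc⟩ := extract (two_ne_zero) ρ W hW hsat hstab t d ht complexConjugation
    complexConjugation_mul_self hd.conj
  obtain ⟨ρ₂, hρ₂c, hρ₂u⟩ := exists_galoisRepAdic M (fun n => by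
    obtain ⟨L, hL, h⟩ := exists_common_level _ _ (hρ.level n) (hd.level n)
    exact ⟨L, hL, fun σ hσ => hMc σ _ (h σ hσ).1 (h σ hσ).2⟩)
  refine ⟨t, d, ρ₂, hd, ht, fun g => by rw [hρ₂c, hMt, hMd], ⟨v₀, hv₀, hv₀ne⟩, hstab, hsat, ?_, ?_⟩
  · intro ℓ hℓ hℓN hℓS A hA σ hσ
    have hℓp : ℓ ≠ p := fun h => hℓS (by rw [h]; exact_mod_cast hpS)
    have hℓNp : ¬ ℓ ∣ N * p := by
      intro h
      rcases (Nat.Prime.dvd_mul hℓ).mp h with h | h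
      · exact hℓN h
      · exact hℓp ((Nat.prime_dvd_prime_iff_eq hℓ Fact.out).mp h)
    rw [hρ₂c, hMt, hMd, hd.frob ℓ hℓ hℓp A hA σ hσ]
    have haℓ : a ℓ = χ (CuspForm.heckeAlgebra.T hℓ hℓN hℓS) := by
      rw [ha, eigSys, dif_pos ⟨hℓ, hℓN, hℓS⟩]
    have hes := hρ.es ℓ hℓ hℓNp A hA σ hσ
    have h1 := ht σ v₀ hv₀
    rw [hd.frob ℓ hℓ hℓp A hA σ hσ] at h1
    have h2 : (ρ σ).mulVec ((ρ σ).mulVec v₀) + (ℓ : 𝒪) • v₀ = a ℓ • (ρ σ).mulVec v₀ := by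
      have := congrArg (fun B => Matrix.mulVec B v₀) hes
      simp only [Matrix.add_mulVec, Matrix.smul_mulVec, Matrix.one_mulVec] at this
      rw [← Matrix.mulVec_mulVec, ← Matrix.mulVec_mulVec] at this
      rw [this]
      exact hstab σ v₀ hv₀ ℓ hℓ hℓN (by exact_mod_cast hℓS)
    have h3 : (a ℓ - t σ) • (ρ σ).mulVec v₀ = 0 := by
      rw [sub_smul, ← h2, ← h1]
      abel
    have h4 : (ρ σ).mulVec v₀ ≠ 0 := by
      intro h
      apply hv₀ne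
      have : (ρ σ⁻¹).mulVec ((ρ σ).mulVec v₀) = v₀ := by
        rw [Matrix.mulVec_mulVec, ← map_mul, inv_mul_cancel, map_one, Matrix.one_mulVec]
      rw [← this, h, Matrix.mulVec_zero]
    have h5 : a ℓ - t σ = 0 := (smul_eq_zero.mp h3).resolve_right h4
    rw [← haℓ, ← sub_eq_zero.mp h5]
  · intro q hq hqN hqp P hP σ hσ
    have hqNp : ¬ q ∣ N * p := by
      intro h
      rcases (Nat.Prime.dvd_mul hq).mp h with h | h
      · exact hqN h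
      · exact hqp ((Nat.prime_dvd_prime_iff_eq hq Fact.out).mp h)
    apply hρ₂u
    have h1 := hρ.unram q hq hqNp P hP σ hσ
    have h2 := hd.inertia q hq hqp P hP σ hσ
    have := hMc σ ⊥ (by rw [h1]; exact MCong.refl _) (by rw [h2, sub_self]; exact Ideal.zero_mem _)
    ext i j
    exact sub_eq_zero.mp (this i j)

end Fermat.Agent.NEW
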