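import Fermat.Agent.NEW.NoLower
import Fermat.Agent.NEW.Coord
import Fermat.Agent.NEW.Hecke
import Fermat.Agent.NEW.Lim

set_option autoImplicit false

/-!
# NEW: theorem NEW

`g` a newform of level `N q`, `W ⊆ 𝒪 ^ r` the eigenmodule of its eigensystem (away from `S`) in the `p`-adic Tate module of
`J₀(N q)` (coordinates `C : Coord (N q) p`).  Then `α_*` and `β_*` kill `W`: there are integer matrices `A n`, `B n` representing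
`α_*, β_* : V_{p^n}(N q) → V_{p^n}(N)` through the uniformisations `κ n`, and `A n v ≡ B n v ≡ 0 (p ^ n 𝒪)` for all `v ∈ W`.
-/

noncomputable section

namespace Fermat.Agent.NEW

open IsLocalRing CongruenceSubgroup
open Fermat.Agent.S24 (Kb FN)
open Fermat.Agent.S30 Fermat.Agent.GES

section matrices

variable {N₁ N₂ p : ℕ} [NeZero N₁] [NeZero N₂] [NeZero p]

theorem mulVec_eq_sum {r s : ℕ} (A : Matrix (Fin s) (Fin r) ℤ) (h : Fin r → ℤ) :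
    A.mulVec h = ∑ j, h j • (fun i => A i j) := by
  funext i
  rw [Matrix.mulVec, dotProduct, Finset.sum_apply]
  exact Finset.sum_congr rfl fun j _ => by simp [mul_comm]

/-- every additive map between Kummer classes is given by an integer matrix. -/
theorem exists_matrix (C₁ : Coord N₁ p) (C₂ : Coord N₂ p) (n : ℕ)
    (φ : VN N₁ (p ^ n) →+ VN N₂ (p ^ n)) :
    ∃ A : Matrix (Fin C₂.r) (Fin C₁.r) ℤ, ∀ h, C₂.κ n (A.mulVec h) = φ (C₁.κ n h) := by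
  choose c hc using fun j : Fin C₁.r => C₂.κ_surj n (φ (C₁.κ n (Pi.single j 1)))
  refine ⟨Matrix.of fun i j => c j i, fun h => ?_⟩
  rw [mulVec_eq_sum, map_sum]
  conv_rhs => rw [pi_eq_sum_univ' h, map_sum, map_sum]
  refine Finset.sum_congr rfl fun j _ => ?_
  rw [map_zsmul, map_zsmul, map_zsmul, ← hc j]
  rfl

/-- the congruence criterion. -/
theorem mcong_of_kappa (C₂ : Coord N₂ p) {s : ℕ} (n : ℕ) (A B : Matrix (Fin C₂.r) (Fin s) ℤ)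
    (h : ∀ x, C₂.κ n (A.mulVec x) = C₂.κ n (B.mulVec x)) : MCong (pIdeal p n) A B := by
  intro i j
  have h1 : C₂.κ n ((A - B).mulVec (Pi.single j 1)) = 0 := by
    rw [Matrix.sub_mulVec, map_sub, h, sub_self]
  have h2 := C₂.κ_ker n _ h1 i
  rw [pIdeal, Ideal.mem_span_singleton]
  simpa using h2

theorem kappa_eq_zero_of_dvd (C₂ : Coord N₂ p) (n : ℕ) (h : Fin C₂.r → ℤ)
    (hd : ∀ i, (p : ℤ) ^ n ∣ h i) : C₂.κ n h = 0 := by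
  choose c hc using hd
  have h1 : h = (p ^ n) • c := by
    funext i
    rw [hc i]
    simp
  rw [h1, map_nsmul]
  exact Vm.nsmul_eq_zero _

end matrices

variable {N q p : ℕ} [NeZero N] [NeZero q] [NeZero p]

/-- the general statement, for a compatible family of Hecke equivariant maps `V_{p^n}(N q) → V_{p^n}(N)`. -/
theorem new_part_aux (hq : 1 < q) (hp : p.Prime) (C : Coord (N * q) p) (C' : Coord N p)
    {g : CuspForm (Gamma0 (N * q)) 2} (hg : g.IsNewform) (S : Finset ℕ) (hpS : p ∈ S)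
    (hMS : ∀ ℓ : ℕ, ℓ.Prime → ℓ ∣ N * q → ℓ ∈ S)
    {𝒪 : Type} [CommRing 𝒪] [IsDomain 𝒪] [IsDiscreteValuationRing 𝒪]
    [IsAdicComplete (maximalIdeal 𝒪) 𝒪] [CharZero 𝒪] (hp𝒪 : (p : 𝒪) ∈ maximalIdeal 𝒪)
    (chig : CuspForm.heckeAlgebra (N * q) 2 (↑S : Set ℕ) →+* ℂ)
    (hchig : ∀ (ℓ : ℕ) (hℓ : ℓ.Prime) (hℓM : ¬ ℓ ∣ N * q) (hℓS : ℓ ∉ (↑S : Set ℕ)),
      chig (CuspForm.heckeAlgebra.T hℓ hℓM hℓS) = ModularFormClass.qCoeff g ℓ)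
    (iota : chig.range →+* 𝒪)
    (φ : ∀ n : ℕ, VN (N * q) (p ^ n) →+ VN N (p ^ n))
    (hφtrans : ∀ (n : ℕ) (x : VN (N * q) (p ^ (n + 1))),
      φ n (Vm.trans Kb (FN (N * q)) (pow_dvd_pow p (Nat.le_succ n)) x) =
        Vm.trans Kb (FN N) (pow_dvd_pow p (Nat.le_succ n)) (φ (n + 1) x))
    (hφT : ∀ (n ℓ : ℕ), ℓ.Prime → ¬ ℓ ∣ N * q * p ^ n → ∀ x : VN (N * q) (p ^ n),
      φ n (TV (N * q) (p ^ n) ℓ x) = TV N (p ^ n) ℓ (φ n x)) :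
    ∃ A : ℕ → Matrix (Fin C'.r) (Fin C.r) ℤ,
      (∀ n h, C'.κ n ((A n).mulVec h) = φ n (C.κ n h)) ∧
      ∀ v ∈ eigenModule (N * q) S (C.TO 𝒪) (eigSys (iota.comp chig.rangeRestrict)), ∀ n i,
        (p : 𝒪) ^ n ∣ (((A n).map (Int.castRingHom 𝒪)).mulVec v) i := by
  choose A hA using fun n => exists_matrix C C' n (φ n)
  refine ⟨A, hA, ?_⟩
  have hsucc : ∀ n, MCong (pIdeal p n) (A (n + 1)) (A n) := by
    intro n
    refine mcong_of_kappa C' n _ _ fun x => ?_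
    rw [hA, ← C'.κ_trans, hA, ← hφtrans, C.κ_trans]
  have hAT : ∀ n ℓ, Good (N * q) p ℓ → MCong (pIdeal p n) (A n * C.T ℓ) (C'.T ℓ * A n) := by
    intro n ℓ hℓ
    have hℓ' : Good N p ℓ := ⟨hℓ.1, fun hd => hℓ.2 (by
      rcases (Nat.Prime.dvd_mul hℓ.1).1 hd with h1 | h1
      · exact Dvd.dvd.mul_right (Dvd.dvd.mul_right h1 q) p
      · exact Dvd.dvd.mul_left h1 _)⟩
    refine mcong_of_kappa C' n _ _ fun x => ?_
    rw [← Matrix.mulVec_mulVec, ← Matrix.mulVec_mulVec, hA, C.κ_T n ℓ hℓ, C'.κ_T n ℓ hℓ', hA,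
      hφT n ℓ hℓ.1 (not_dvd_mul_pow hℓ.1 hℓ.2 n)]
  obtain ⟨𝔸, h𝔸⟩ := exists_plim hp𝒪 hp.ne_zero A hsucc
  have hle : ∀ k, Ideal.span {(p : 𝒪) ^ k} ≤ maximalIdeal 𝒪 ^ k := fun k => by
    rw [Ideal.span_singleton_le_iff_mem]
    exact Ideal.pow_mem_pow hp𝒪 k
  have h𝔸T : ∀ ℓ, Good (N * q) p ℓ → 𝔸 * C.TO 𝒪 ℓ = C'.TO 𝒪 ℓ * 𝔸 := by
    intro ℓ hℓ
    refine eq_of_forall_mcong (maximalIdeal 𝒪) fun k => ?_
    have h1 := ((h𝔸 k).mono (hle k))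
    have h2 : MCong (maximalIdeal 𝒪 ^ k) ((A k * C.T ℓ).map (Int.castRingHom 𝒪))
        ((C'.T ℓ * A k).map (Int.castRingHom 𝒪)) := (hAT k ℓ hℓ).map _ (pIdeal_map_le hp𝒪 k)
    rw [Matrix.map_mul, Matrix.map_mul] at h2
    exact ((h1.mul (MCong.refl _)).trans h2).trans ((MCong.refl _).mul h1).symm
  intro v hv n i
  have hw : 𝔸.mulVec v = 0 := by
    refine no_lower hq hp hg S hpS hMS chig hchig iota C'.T C'.link_conv _ ?_
    intro ℓ hℓ hℓM hℓS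
    have hgood : Good (N * q) p ℓ := ⟨hℓ, fun hd => by
      rcases (Nat.Prime.dvd_mul hℓ).1 hd with h1 | h1
      · exact hℓM h1
      · exact hℓS (((Nat.prime_dvd_prime_iff_eq hℓ hp).mp h1) ▸ hpS)⟩
    have h1 := h𝔸T ℓ hgood
    change (C'.TO 𝒪 ℓ).mulVec (𝔸.mulVec v) = _
    rw [Matrix.mulVec_mulVec, ← h1, ← Matrix.mulVec_mulVec, hv ℓ hℓ hℓM hℓS, Matrix.mulVec_smul]
  have h1 := (h𝔸 n).mulVec v i
  rw [hw, Pi.zero_apply, zero_sub, neg_mem_iff, Ideal.mem_span_singleton] at h1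
  exact h1

/-- **Theorem NEW.** -/
theorem new_part (hq : 1 < q) (hp : p.Prime) (C : Coord (N * q) p) (C' : Coord N p)
    {g : CuspForm (Gamma0 (N * q)) 2} (hg : g.IsNewform) (S : Finset ℕ) (hpS : p ∈ S)
    (hMS : ∀ ℓ : ℕ, ℓ.Prime → ℓ ∣ N * q → ℓ ∈ S)
    {𝒪 : Type} [CommRing 𝒪] [IsDomain 𝒪] [IsDiscreteValuationRing 𝒪]
    [IsAdicComplete (maximalIdeal 𝒪) 𝒪] [CharZero 𝒪] (hp𝒪 : (p : 𝒪) ∈ maximalIdeal 𝒪)
    (chig : CuspForm.heckeAlgebra (N * q) 2 (↑S : Set ℕ) →+* ℂ)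
    (hchig : ∀ (ℓ : ℕ) (hℓ : ℓ.Prime) (hℓM : ¬ ℓ ∣ N * q) (hℓS : ℓ ∉ (↑S : Set ℕ)),
      chig (CuspForm.heckeAlgebra.T hℓ hℓM hℓS) = ModularFormClass.qCoeff g ℓ)
    (iota : chig.range →+* 𝒪) :
    ∃ A B : ℕ → Matrix (Fin C'.r) (Fin C.r) ℤ,
      (∀ n h, C'.κ n ((A n).mulVec h) = alphaV N q (p ^ n) (C.κ n h)) ∧
      (∀ n h, C'.κ n ((B n).mulVec h) = betaV N q (p ^ n) (C.κ n h)) ∧
      ∀ v ∈ eigenModule (N * q) S (C.TO 𝒪) (eigSys (iota.comp chig.rangeRestrict)), ∀ n i,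
        (p : 𝒪) ^ n ∣ (((A n).map (Int.castRingHom 𝒪)).mulVec v) i ∧
        (p : 𝒪) ^ n ∣ (((B n).map (Int.castRingHom 𝒪)).mulVec v) i := by
  obtain ⟨A, hA1, hA2⟩ := new_part_aux hq hp C C' hg S hpS hMS hp𝒪 chig hchig iota
    (fun n => alphaV N q (p ^ n)) (fun n x => alphaV_trans N q _ x)
    (fun n ℓ hℓ hd x => alphaV_TV N q (p ^ n) ℓ hℓ hd x)
  obtain ⟨B, hB1, hB2⟩ := new_part_aux hq hp C C' hg S hpS hMS hp𝒪 chig hchig iota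
    (fun n => betaV N q (p ^ n)) (fun n x => betaV_trans N q _ x)
    (fun n ℓ hℓ hd x => betaV_TV N q (p ^ n) ℓ hℓ hd x)
  exact ⟨A, B, hA1, hB1, fun v hv n i => ⟨hA2 v hv n i, hB2 v hv n i⟩⟩

end Fermat.Agent.NEW
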