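import Fermat.Agent.S49.Formal
import Fermat.Agent.S49.Algebra
import Fermat.Agent.S49.Hecke
import Fermat.Agent.S31.Defs
import Fermat.Agent.S23.Main

set_option autoImplicit false

/-!
# NEW task N-Normalize : an eigenvector for SOME good Hecke operators gives a normalised eigenform with the same eigenvalues

SKETCH.  `U := {f | ∀ ℓ, G ℓ → heckeFam N ℓ f = a ℓ • f}` is a nonzero `ℂ`-subspace of `S₂(Γ₀(N))`, finite dimensional
(`S₂` is: the Prelude's `P2MW.S_CuspForm_intLattice_fg.W3WsD.trunc_injective N 2` is an injective linear map to a finite dimensional space,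
see `S49.eq_zero_of_qCoeff`; or search for an existing `FiniteDimensional ℂ (CuspForm (Gamma0 N) 2)` in `Fermat/Agent`, e.g. S20/ES),
stable under `S49.phi N t` for all `t : S49.TT N` (= full Hecke algebra `heckeAlgebra N 2 ∅`, COMMUTATIVE; `heckeFam N ℓ` is `0` or
`phi N (heckeAlgebra.T hℓ hℓN (Set.notMem_empty ℓ))`).
`S49.exists_common_eigenvector (S49.phi N) _ U …` + `S49.exists_character` give `v ∈ U`, `v ≠ 0`, `χ : TT N →+* ℂ` with `phi N t v = χ t • v`.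
The rest is a VERBATIM copy of the second half of `Fermat/Agent/S49.lean` (`hT`, `hU`, `hrec`, `hc1`, `hsys`, `f := (qCoeff v 1)⁻¹ • v`,
`hnorm`, and `qCoeff f ℓ = χ (T ℓ)`); finally `χ (T ℓ) = a ℓ` for `G ℓ` because `v ∈ U`, `v ≠ 0`.
-/

namespace Fermat.Agent.NEW

open CongruenceSubgroup ModularFormClass
open Fermat.Agent.S49

/-- the common eigenspace. -/
noncomputable def eigSpace (N : ℕ) [NeZero N] (G : ℕ → Prop) (a : ℕ → ℂ) :
    Submodule ℂ (CuspForm (Gamma0 N) 2) where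
  carrier := {f | ∀ ℓ, G ℓ → S31.heckeFam N ℓ f = a ℓ • f}
  add_mem' := by
    intro f g hf hg ℓ hℓ
    rw [map_add, hf ℓ hℓ, hg ℓ hℓ, smul_add]
  zero_mem' := by
    intro ℓ _
    rw [map_zero, smul_zero]
  smul_mem' := by
    intro c f hf ℓ hℓ
    rw [map_smul, hf ℓ hℓ, smul_comm]

theorem heckeFam_comm_phi (N : ℕ) [NeZero N] (ℓ : ℕ) (t : TT N) (f : CuspForm (Gamma0 N) 2) :
    S31.heckeFam N ℓ (phi N t f) = phi N t (S31.heckeFam N ℓ f) := by
  unfold S31.heckeFam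
  split_ifs with h
  · have e : CuspForm.heckeTLin 2 h.1 h.2 =
        phi N (CuspForm.heckeAlgebra.T h.1 h.2 (Set.notMem_empty ℓ)) := rfl
    rw [e, ← Module.End.mul_apply, ← Module.End.mul_apply, ← map_mul, ← map_mul, mul_comm]
  · simp

theorem exists_normalized (N : ℕ) [NeZero N] (G : ℕ → Prop) (a : ℕ → ℂ)
    (f : CuspForm (Gamma0 N) 2) (hf : f ≠ 0) (h : ∀ ℓ, G ℓ → S31.heckeFam N ℓ f = a ℓ • f) :
    ∃ g' : CuspForm (Gamma0 N) 2, g'.IsNormalizedEigenform ∧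
      ∀ ℓ : ℕ, ℓ.Prime → ¬ ℓ ∣ N → G ℓ → qCoeff g' ℓ = a ℓ := by
  have hfd : FiniteDimensional ℂ (CuspForm (Gamma0 N) 2) := S23.main_finiteDimensional N 2
  have hU : eigSpace N G a ≠ ⊥ := by
    intro hbot
    have : f ∈ eigSpace N G a := h
    rw [hbot, Submodule.mem_bot] at this
    exact hf this
  obtain ⟨v, hvU, hv0, hv⟩ := exists_common_eigenvector (phi N) _ (eigSpace N G a) inferInstance rfl
    hU (by
      intro s u hu ℓ hℓ
      rw [heckeFam_comm_phi, hu ℓ hℓ, map_smul])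
  obtain ⟨χ, hχ⟩ := exists_character (phi N) v hv0 hv
  have hT : ∀ (ℓ : ℕ) (hℓ : ℓ.Prime) (hℓN : ¬ ℓ ∣ N) (n : ℕ),
      qCoeff v (ℓ * n) + (ℓ : ℂ) * (if ℓ ∣ n then qCoeff v (n / ℓ) else 0) =
        χ (CuspForm.heckeAlgebra.T hℓ hℓN (Set.notMem_empty ℓ)) * qCoeff v n := by
    intro ℓ hℓ hℓN n
    rw [← qCoeff_heckeTLin hℓ hℓN, ← qCoeff_smul', ← hχ]
    rfl
  have hUU : ∀ (ℓ : ℕ) (hℓ : ℓ.Prime) (hℓN : ℓ ∣ N) (n : ℕ),
      qCoeff v (ℓ * n) =
        χ (CuspForm.heckeAlgebra.U hℓ hℓN (Set.notMem_empty ℓ)) * qCoeff v n := by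
    intro ℓ hℓ hℓN n
    rw [← qCoeff_heckeULin hℓ hℓN, ← qCoeff_smul', ← hχ]
    rfl
  let e : ℕ → ℂ := fun ℓ => if ℓ ∣ N then 0 else (ℓ : ℂ)
  have hrec : ∀ ℓ : ℕ, ℓ.Prime → ∃ lam : ℂ, ∀ n : ℕ,
      qCoeff v (ℓ * n) + e ℓ * (if ℓ ∣ n then qCoeff v (n / ℓ) else 0) = lam * qCoeff v n := by
    intro ℓ hℓ
    by_cases hℓN : ℓ ∣ N
    · refine ⟨χ (CuspForm.heckeAlgebra.U hℓ hℓN (Set.notMem_empty ℓ)), fun n => ?_⟩
      simp only [e, if_pos hℓN, zero_mul, add_zero]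
      exact hUU ℓ hℓ hℓN n
    · refine ⟨χ (CuspForm.heckeAlgebra.T hℓ hℓN (Set.notMem_empty ℓ)), fun n => ?_⟩
      simp only [e, if_neg hℓN]
      exact hT ℓ hℓ hℓN n
  have hc1 : qCoeff v 1 ≠ 0 := by
    intro h1
    apply hv0
    apply eq_zero_of_qCoeff
    intro n
    rcases Nat.eq_zero_or_pos n with rfl | hn
    · exact qCoeff_zero_index v
    · exact coeff_eq_zero_of_one_eq_zero hrec h1 n hn
  have hsys := normalized_eigensystem hrec hc1
  let f' : CuspForm (Gamma0 N) 2 := (qCoeff v 1)⁻¹ • v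
  have hfc : ∀ n, qCoeff f' n = (qCoeff v 1)⁻¹ * qCoeff v n := fun n => qCoeff_smul' _ _ _
  have hnorm : f'.IsNormalizedEigenform := by
    refine ⟨?_, ?_, ?_, ?_⟩
    · rw [hfc]; exact hsys.1
    · intro m n hmn
      rw [hfc, hfc, hfc]
      exact eigensystem_mul_of_coprime hsys m n hmn
    · intro p r hp hpN
      rw [hfc, hfc, hfc, hfc]
      have := eigensystem_prime_pow hsys p r hp
      simp only [e, if_neg hpN] at this
      exact this
    · intro p r hp hpN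
      rw [hfc, hfc, hfc]
      have := eigensystem_prime_pow hsys p r hp
      simp only [e, if_pos hpN, zero_mul, sub_zero] at this
      exact this
  refine ⟨f', hnorm, ?_⟩
  intro ℓ hℓ hℓN hG
  have hχa : χ (CuspForm.heckeAlgebra.T hℓ hℓN (Set.notMem_empty ℓ)) = a ℓ := by
    have h1 := hvU ℓ hG
    have h2 : S31.heckeFam N ℓ v =
        phi N (CuspForm.heckeAlgebra.T hℓ hℓN (Set.notMem_empty ℓ)) v := by
      unfold S31.heckeFam
      rw [dif_pos ⟨hℓ, hℓN⟩]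
      rfl
    rw [h2, hχ] at h1
    exact smul_left_injective ℂ hv0 h1
  rw [hfc, ← hχa]
  have h1 := hT ℓ hℓ hℓN 1
  have hnd : ¬ ℓ ∣ 1 := fun hd => hℓ.one_lt.ne' (Nat.dvd_one.mp hd)
  rw [if_neg hnd, mul_zero, add_zero, mul_one] at h1
  rw [h1]
  field_simp

end Fermat.Agent.NEW
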