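import Fermat.Agent.S29
import Fermat.Agent.S29.FDMain
import Fermat.Agent.S54.Frob

set_option autoImplicit false

/-!
# NEW task N-SMO : "strong multiplicity one, lite"

Two normalised eigenforms (of possibly different levels `M`, `N`) whose `a_ℓ` agree for all primes `ℓ` outside a finite
set `S` have the same `a_ℓ` for ALL primes `ℓ ∤ M N`.

SKETCH (only `S29.result` + Frobenius density lite; no Kummer theory).  Fix `ℓ₀ ∤ M N` prime.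
1. For EVERY prime `p ≠ ℓ₀` and every `φ : integralClosure ℤ ℂ →+* k`, `k` a field of char. `p`:
   `S29.result hg hp φ`, `S29.result hg' hp φ` give `ρ ρ' : ResidualGaloisRep k` attached to `g`, `g'`.
   Let `L = L₁ ⊔ L₂` be a common finite level (`factorsThroughFiniteLevel`).  Take a Frobenius lift `σ₀` at `ℓ₀`
   (`S54.exists_frob`).  `S29.frobenius_density_lite L (S ∪ (M*N*p).primeFactors) σ₀` gives a prime `ℓ` outside that set, a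
   Frobenius lift `σ` at `ℓ` and `b` with `σ ^ b = σ₀` on `L`; so `ρ σ₀ = (ρ σ) ^ b`, `ρ' σ₀ = (ρ' σ) ^ b`
   (`σ₀⁻¹ σ^b` fixes `L`).
2. Linear algebra: if `charpoly f = X² - t X + d` on a 2-dimensional space then `trace (f ^ b) = D_b(t, d)` where
   `D₀ = 2, D₁ = t, D_{b+2} = t D_{b+1} - d D_b` (Cayley-Hamilton `LinearMap.aeval_self_charpoly` times `f ^ b`, linearity
   of the trace; `trace f = t` from `LinearMap.charpoly` next coefficient: `Matrix.trace_eq_neg_charpoly_coeff` /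
   `LinearMap.charpoly_toMatrix`, `trace 1 = finrank = 2`).  (`S31.dseq`, `S31.trace_pow_eq_dseq` in `S31/Dickson.lean` is the
   matrix version for 2x2 matrices: reuse it through `LinearMap.toMatrix`.)
   `IsAttachedTo` at `ℓ` : charpolys `X² - φ(a) X + ℓ`, `X² - φ(a') X + ℓ` with `(a : ℂ) = a_ℓ(g) = a_ℓ(g') = (a' : ℂ)`, so `a = a'`
   (`Subtype.ext`).  Hence `trace (ρ σ₀) = trace (ρ' σ₀)`.
3. `IsAttachedTo` at `ℓ₀` (`(ℓ₀ : k) ≠ 0` as `p ≠ ℓ₀`): `trace (ρ σ₀) = φ a₀`, `trace (ρ' σ₀) = φ a₀'`.  So `φ (a₀ - a₀') = 0` for ALL such `φ`.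
   (`a₀, a₀'` do not depend on `φ`: they are THE elements of `integralClosure ℤ ℂ` with value `a_ℓ₀(g)`, `a_ℓ₀(g')`.)
4. If `δ = a₀ - a₀' ≠ 0`: `δ` is integral over `ℤ`; a monic relation of minimal degree has constant term `c₀ ≠ 0` and `δ ∣ c₀` in
   `integralClosure ℤ ℂ`.  Choose a prime `p ∤ c₀ ℓ₀` (`Nat.exists_infinite_primes`), a maximal ideal `𝔪 ∋ p` of
   `integralClosure ℤ ℂ` (`p` is not a unit: `1/p` is not integral, `IsIntegrallyClosed ℤ`/`IsIntegral` of a rational), `k := _ ⧸ 𝔪`,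
   `φ := Ideal.Quotient.mk 𝔪`, `CharP k p`.  Then `φ δ = 0 ⟹ (c₀ : k) = 0 ⟹ p ∣ c₀`.  Contradiction.
-/

namespace Fermat.Agent.NEW

open ModularFormClass Polynomial

section linalg

variable {k V : Type*} [Field k] [AddCommGroup V] [Module k V] [Module.Finite k V]

theorem smo_trace_eq_neg_nextCoeff (f : Module.End k V) :
    LinearMap.trace k V f = - f.charpoly.nextCoeff := by
  classical
  have b := Module.finBasis k V
  rw [LinearMap.trace_eq_matrix_trace k b f, Matrix.trace_eq_neg_charpoly_nextCoeff,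
    LinearMap.charpoly_toMatrix]

theorem smo_trace_of_charpoly (f : Module.End k V) {t d : k}
    (h : f.charpoly = X ^ 2 - C t * X + C d) : LinearMap.trace k V f = t := by
  rw [smo_trace_eq_neg_nextCoeff, h]
  have hdeg : (X ^ 2 - C t * X + C d : k[X]).natDegree = 2 := by
    rw [← h]
    have h2 : (X ^ 2 - C t * X + C d : k[X]) = C 1 * X ^ 2 + C (-t) * X + C d := by
      simp only [map_one, map_neg]
      ring
    rw [h, h2]
    exact natDegree_quadratic one_ne_zero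
  rw [nextCoeff_of_natDegree_pos (by rw [hdeg]; norm_num), hdeg]
  simp [coeff_C]

/-- the Dickson sequence. -/
def smoD (t d : k) : ℕ → k
  | 0 => 2
  | 1 => t
  | (b + 2) => t * smoD t d (b + 1) - d * smoD t d b

theorem smo_trace_pow (f : Module.End k V) (hV : Module.finrank k V = 2) {t d : k}
    (h : f.charpoly = X ^ 2 - C t * X + C d) (b : ℕ) :
    LinearMap.trace k V (f ^ b) = smoD t d b := by
  have hCH : f ^ 2 = t • f - d • 1 := by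
    have h1 := LinearMap.aeval_self_charpoly f
    rw [h] at h1
    simp only [map_add, map_sub, map_mul, map_pow, aeval_X, aeval_C] at h1
    rw [Algebra.algebraMap_eq_smul_one, Algebra.algebraMap_eq_smul_one, smul_mul_assoc,
      one_mul] at h1
    rw [← sub_eq_zero, ← h1]
    abel
  induction b using Nat.twoStepInduction with
  | zero =>
    rw [pow_zero, LinearMap.trace_one, hV]
    simp [smoD]
  | one => rw [pow_one, smo_trace_of_charpoly f h]; rfl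
  | more b ih1 ih2 =>
    have h2 : f ^ (b + 2) = t • f ^ (b + 1) - d • f ^ b := by
      rw [pow_add, hCH, mul_sub, mul_smul_comm, mul_smul_comm, mul_one, ← pow_succ]
    rw [h2, map_sub, map_smul, map_smul, ih1, ih2]
    rfl

end linalg

/-- the two residual traces at `ℓ₀` agree. -/
theorem smo_key {M N : ℕ} {g : CuspForm (CongruenceSubgroup.Gamma0 M) 2}
    {g' : CuspForm (CongruenceSubgroup.Gamma0 N) 2} (hg : g.IsNormalizedEigenform)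
    (hg' : g'.IsNormalizedEigenform) (hM : M ≠ 0) (hN : N ≠ 0) (S : Finset ℕ)
    (h : ∀ ℓ : ℕ, ℓ.Prime → ℓ ∉ S → qCoeff g' ℓ = qCoeff g ℓ)
    (ℓ₀ : ℕ) (hℓ₀ : ℓ₀.Prime) (hℓM : ¬ ℓ₀ ∣ M) (hℓN : ¬ ℓ₀ ∣ N)
    {p : ℕ} (hp : p.Prime) (hpℓ : p ≠ ℓ₀) {k : Type} [Field k] [CharP k p]
    (φ : integralClosure ℤ ℂ →+* k) :
    ∃ a a' : integralClosure ℤ ℂ, (a : ℂ) = qCoeff g ℓ₀ ∧ (a' : ℂ) = qCoeff g' ℓ₀ ∧
      φ a = φ a' := by
  obtain ⟨ρ, hρ, -⟩ := Fermat.Agent.S29.result hg hp φ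
  obtain ⟨ρ', hρ', -⟩ := Fermat.Agent.S29.result hg' hp φ
  obtain ⟨L₁, hL₁, h1⟩ := ρ.factorsThroughFiniteLevel
  obtain ⟨L₂, hL₂, h2⟩ := ρ'.factorsThroughFiniteLevel
  have hL : FiniteDimensional ℚ (L₁ ⊔ L₂ : IntermediateField ℚ (AlgebraicClosure ℚ)) :=
    IntermediateField.finiteDimensional_sup L₁ L₂
  obtain ⟨A₀, σ₀, hA₀, hσ₀⟩ := Fermat.Agent.S54.exists_frob ℓ₀ hℓ₀
  obtain ⟨ℓ, hℓ, hℓS, A, hA, σ, hσ, b, hb⟩ :=
    Fermat.Agent.S29.frobenius_density_lite (L₁ ⊔ L₂) (S ∪ (M * N * p).primeFactors) σ₀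
  rw [Finset.mem_union, not_or] at hℓS
  obtain ⟨hℓS, hℓP⟩ := hℓS
  have hMNp : M * N * p ≠ 0 := mul_ne_zero (mul_ne_zero hM hN) hp.ne_zero
  have hℓd : ¬ ℓ ∣ M * N * p := fun hd => hℓP (Nat.mem_primeFactors.mpr ⟨hℓ, hd, hMNp⟩)
  have hℓM' : ¬ ℓ ∣ M := fun hd => hℓd ((hd.mul_right N).mul_right p)
  have hℓN' : ¬ ℓ ∣ N := fun hd => hℓd ((hd.mul_left M).mul_right p)
  have hℓp : ¬ ℓ ∣ p := fun hd => hℓd (hd.mul_left (M * N))
  have hℓk : (ℓ : k) ≠ 0 := by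
    rw [Ne, CharP.cast_eq_zero_iff k p ℓ]
    intro hd
    rw [(Nat.prime_dvd_prime_iff_eq hp hℓ).mp hd] at hℓp
    exact hℓp dvd_rfl
  have hℓ₀k : (ℓ₀ : k) ≠ 0 := by
    rw [Ne, CharP.cast_eq_zero_iff k p ℓ₀]
    intro hd
    exact hpℓ ((Nat.prime_dvd_prime_iff_eq hp hℓ₀).mp hd)
  -- `ρ σ₀ = (ρ σ) ^ b`
  have hfix : ∀ x ∈ (L₁ ⊔ L₂ : IntermediateField ℚ (AlgebraicClosure ℚ)),
      (σ₀⁻¹ * σ ^ b) x = x := by
    intro x hx
    rw [AlgEquiv.mul_apply, hb x hx]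
    exact σ₀.symm_apply_apply x
  have e1 : ρ.ρ σ₀ = ρ.ρ σ ^ b := by
    have h3 := h1 (σ₀⁻¹ * σ ^ b) (fun x hx => hfix x ((le_sup_left : L₁ ≤ L₁ ⊔ L₂) hx))
    rw [← map_pow]
    calc ρ.ρ σ₀ = ρ.ρ σ₀ * ρ.ρ (σ₀⁻¹ * σ ^ b) := by rw [h3, mul_one]
      _ = ρ.ρ (σ ^ b) := by rw [← map_mul, mul_inv_cancel_left]
  have e2 : ρ'.ρ σ₀ = ρ'.ρ σ ^ b := by
    have h3 := h2 (σ₀⁻¹ * σ ^ b) (fun x hx => hfix x ((le_sup_right : L₂ ≤ L₁ ⊔ L₂) hx))
    rw [← map_pow]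
    calc ρ'.ρ σ₀ = ρ'.ρ σ₀ * ρ'.ρ (σ₀⁻¹ * σ ^ b) := by rw [h3, mul_one]
      _ = ρ'.ρ (σ ^ b) := by rw [← map_mul, mul_inv_cancel_left]
  obtain ⟨c, hc, hcp⟩ := hρ ℓ hℓ hℓM' hℓk A hA σ hσ
  obtain ⟨c', hc', hcp'⟩ := hρ' ℓ hℓ hℓN' hℓk A hA σ hσ
  have hcc : c' = c := Subtype.ext (by rw [hc, hc', h ℓ hℓ hℓS])
  obtain ⟨a, ha, hap⟩ := hρ ℓ₀ hℓ₀ hℓM hℓ₀k A₀ hA₀ σ₀ hσ₀
  obtain ⟨a', ha', hap'⟩ := hρ' ℓ₀ hℓ₀ hℓN hℓ₀k A₀ hA₀ σ₀ hσ₀
  refine ⟨a, a', ha, ha', ?_⟩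
  rw [← smo_trace_of_charpoly _ hap, ← smo_trace_of_charpoly _ hap', e1, e2,
    smo_trace_pow _ ρ.finrank_eq hcp, smo_trace_pow _ ρ'.finrank_eq hcp', hcc]

/-- a nonzero algebraic integer avoids a maximal ideal of residue characteristic `p ≠ ℓ₀`. -/
theorem smo_exists_max (δ : integralClosure ℤ ℂ) (hδ : δ ≠ 0) (ℓ₀ : ℕ) :
    ∃ (p : ℕ) (𝔪 : Ideal (integralClosure ℤ ℂ)), p.Prime ∧ p ≠ ℓ₀ ∧ 𝔪.IsMaximal ∧
      (p : integralClosure ℤ ℂ) ∈ 𝔪 ∧ δ ∉ 𝔪 := by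
  have hint : IsIntegral ℤ δ := Algebra.IsIntegral.isIntegral δ
  set P := minpoly ℤ δ with hP
  set c₀ := P.coeff 0 with hc₀
  have hc0 : c₀ ≠ 0 := by
    intro h0
    have h1 : (X : ℤ[X]) ∣ P := X_dvd_iff.mpr h0
    obtain ⟨Q, hQ⟩ := irreducible_X.dvd_symm (minpoly.irreducible hint) h1
    have h2 := congrArg (aeval δ) hQ
    rw [aeval_X, map_mul, minpoly.aeval, zero_mul] at h2
    exact hδ h2
  have hdvd : δ ∣ ((c₀ : ℤ) : integralClosure ℤ ℂ) := by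
    have h1 : aeval δ P = 0 := minpoly.aeval ℤ δ
    rw [← divX_mul_X_add P, map_add, map_mul, aeval_X, aeval_C, eq_intCast] at h1
    refine ⟨- aeval δ P.divX, ?_⟩
    rw [mul_neg, mul_comm, eq_neg_iff_add_eq_zero, add_comm]
    exact h1
  obtain ⟨p, hpge, hp⟩ := Nat.exists_infinite_primes (c₀.natAbs + ℓ₀ + 1)
  have hpc : ¬ (p : ℤ) ∣ c₀ := by
    intro hd
    have h1 := Int.natAbs_dvd_natAbs.mpr hd
    rw [Int.natAbs_natCast] at h1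
    have h2 := Nat.le_of_dvd (Int.natAbs_pos.mpr hc0) h1
    omega
  have hpmax : (Ideal.span {(p : ℤ)}).IsMaximal :=
    PrincipalIdealRing.isMaximal_of_irreducible (Nat.prime_iff_prime_int.mp hp).irreducible
  obtain ⟨𝔪, h𝔪, hcomap⟩ := Ideal.exists_ideal_over_maximal_of_isIntegral
    (S := integralClosure ℤ ℂ) (Ideal.span {(p : ℤ)}) (by
      rw [(RingHom.injective_iff_ker_eq_bot _).mp
        (FaithfulSMul.algebraMap_injective ℤ (integralClosure ℤ ℂ))]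
      exact bot_le)
  refine ⟨p, 𝔪, hp, by omega, h𝔪, ?_, ?_⟩
  · have h1 : (p : ℤ) ∈ 𝔪.comap (algebraMap ℤ (integralClosure ℤ ℂ)) := by
      rw [hcomap]
      exact Ideal.mem_span_singleton_self _
    rw [Ideal.mem_comap, eq_intCast] at h1
    exact_mod_cast h1
  · intro hmem
    have h1 : c₀ ∈ 𝔪.comap (algebraMap ℤ (integralClosure ℤ ℂ)) := by
      rw [Ideal.mem_comap, eq_intCast]
      exact 𝔪.mem_of_dvd hdvd hmem
    rw [hcomap, Ideal.mem_span_singleton] at h1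
    exact hpc h1

theorem smo_lite {M N : ℕ} {g : CuspForm (CongruenceSubgroup.Gamma0 M) 2}
    {g' : CuspForm (CongruenceSubgroup.Gamma0 N) 2} (hg : g.IsNormalizedEigenform)
    (hg' : g'.IsNormalizedEigenform) (hM : M ≠ 0) (hN : N ≠ 0) (S : Finset ℕ)
    (h : ∀ ℓ : ℕ, ℓ.Prime → ℓ ∉ S → qCoeff g' ℓ = qCoeff g ℓ)
    (ℓ : ℕ) (hℓ : ℓ.Prime) (hℓM : ¬ ℓ ∣ M) (hℓN : ¬ ℓ ∣ N) : qCoeff g' ℓ = qCoeff g ℓ := by
  -- integrality of the two coefficients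
  obtain ⟨p, 𝔪, hp, hpℓ, h𝔪, hpm, -⟩ := smo_exists_max 1 one_ne_zero ℓ
  let _ : Field (integralClosure ℤ ℂ ⧸ 𝔪) := Ideal.Quotient.field 𝔪
  have hchar : ∀ (p : ℕ) (𝔪 : Ideal (integralClosure ℤ ℂ)), p.Prime → 𝔪.IsMaximal →
      (p : integralClosure ℤ ℂ) ∈ 𝔪 → CharP (integralClosure ℤ ℂ ⧸ 𝔪) p := by
    intro p 𝔪 hp h𝔪 hpm
    have h0 : ((p : ℕ) : integralClosure ℤ ℂ ⧸ 𝔪) = 0 := by
      have := Ideal.Quotient.eq_zero_iff_mem.mpr hpm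
      rwa [map_natCast] at this
    have hnt : Nontrivial (integralClosure ℤ ℂ ⧸ 𝔪) := Ideal.Quotient.nontrivial_iff.mpr h𝔪.ne_top
    have h1 := ringChar.dvd h0
    rcases (Nat.dvd_prime hp).mp h1 with h2 | h2
    · exact absurd h2 CharP.ringChar_ne_one
    · rw [← h2]
      exact ringChar.charP _
  have := hchar p 𝔪 hp h𝔪 hpm
  obtain ⟨a, a', ha, ha', -⟩ := smo_key hg hg' hM hN S h ℓ hℓ hℓM hℓN hp hpℓ
    (Ideal.Quotient.mk 𝔪)
  by_contra hne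
  have hδ : a - a' ≠ 0 := by
    intro h0
    apply hne
    rw [← ha, ← ha', sub_eq_zero.mp h0]
  obtain ⟨p', 𝔪', hp', hpℓ', h𝔪', hpm', hδm⟩ := smo_exists_max (a - a') hδ ℓ
  let _ : Field (integralClosure ℤ ℂ ⧸ 𝔪') := Ideal.Quotient.field 𝔪'
  have := hchar p' 𝔪' hp' h𝔪' hpm'
  obtain ⟨b, b', hb, hb', hbb⟩ := smo_key hg hg' hM hN S h ℓ hℓ hℓM hℓN hp' hpℓ'
    (Ideal.Quotient.mk 𝔪')
  have e1 : b = a := Subtype.ext (by rw [hb, ha])
  have e2 : b' = a' := Subtype.ext (by rw [hb', ha'])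
  rw [e1, e2, ← sub_eq_zero, ← map_sub, Ideal.Quotient.eq_zero_iff_mem] at hbb
  exact hδm hbb

end Fermat.Agent.NEW
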