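import Fermat.Agent.NEW.IotaInj
import Fermat.Agent.NEW.SMO
import Fermat.Agent.NEW.EigS2
import Fermat.Agent.NEW.Normalize
import Fermat.Agent.S30.Prim
import Fermat.Prelude.Def_CuspForm_Newforms

set_option autoImplicit false

/-!
# NEW: the eigensystem of a newform of level `N q` does not occur in the lattice of level `N`
-/

namespace Fermat.Agent.NEW

open CongruenceSubgroup ModularFormClass

theorem no_lower {N q p : ℕ} [NeZero N] [NeZero q] (hq : 1 < q) (hp : p.Prime)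
    {g : CuspForm (Gamma0 (N * q)) 2} (hg : g.IsNewform) (S : Finset ℕ) (hpS : p ∈ S)
    (hMS : ∀ ℓ : ℕ, ℓ.Prime → ℓ ∣ N * q → ℓ ∈ S)
    {𝒪 : Type} [CommRing 𝒪] [IsDomain 𝒪] [CharZero 𝒪]
    (chig : CuspForm.heckeAlgebra (N * q) 2 (↑S : Set ℕ) →+* ℂ)
    (hchig : ∀ (ℓ : ℕ) (hℓ : ℓ.Prime) (hℓM : ¬ ℓ ∣ N * q) (hℓS : ℓ ∉ (↑S : Set ℕ)),
      chig (CuspForm.heckeAlgebra.T hℓ hℓM hℓS) = ModularFormClass.qCoeff g ℓ)
    (iota : chig.range →+* 𝒪)
    {r' : ℕ} (T' : ℕ → Matrix (Fin r') (Fin r') ℤ)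
    (hlink : ∀ P : FreeAlgebra ℤ ℕ, FreeAlgebra.lift ℤ (S30.heckeOp N p) P = 0 →
      FreeAlgebra.lift ℤ T' P = 0)
    (w : Fin r' → 𝒪)
    (hw : ∀ ℓ : ℕ, ℓ.Prime → ¬ ℓ ∣ N * q → ℓ ∉ S →
      ((T' ℓ).map (Int.castRingHom 𝒪)).mulVec w =
        S30.eigSys (iota.comp chig.rangeRestrict) ℓ • w) :
    w = 0 := by
  classical
  by_contra hw0
  let G : ℕ → Prop := fun ℓ => ℓ.Prime ∧ ¬ ℓ ∣ N * q ∧ ℓ ∉ (↑S : Set ℕ)
  let τ : ℕ → CuspForm.heckeAlgebra (N * q) 2 (↑S : Set ℕ) := fun ℓ =>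
    if h : G ℓ then CuspForm.heckeAlgebra.T h.1 h.2.1 h.2.2 else 0
  let a : ℕ → ℂ := fun ℓ => chig (τ ℓ)
  have ha : ∀ ℓ, G ℓ → a ℓ = qCoeff g ℓ := by
    intro ℓ h
    simp only [a, τ, dif_pos h]
    exact hchig ℓ h.1 h.2.1 h.2.2
  set χ := iota.comp chig.rangeRestrict with hχ
  have heig : ∀ ℓ, S30.eigSys χ ℓ = χ (τ ℓ) := by
    intro ℓ
    by_cases h : G ℓ
    · simp only [τ, dif_pos h]
      exact dif_pos h
    · simp only [τ, dif_neg h, map_zero]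
      exact dif_neg h
  have hrel : ∀ P : FreeAlgebra ℤ ℕ, FreeAlgebra.lift ℤ (S31.heckeFam N) (mask G P) = 0 →
      FreeAlgebra.lift ℤ a P = 0 := by
    intro P hP
    have h1 : FreeAlgebra.lift ℤ (S30.heckeOp N p) (mask G P) = 0 := by
      rw [← hP]
      refine lift_mask_congr _ _ G (fun ℓ h => ?_) P
      have hg' : S30.Good N p ℓ := by
        refine ⟨h.1, fun hd => ?_⟩
        rcases (Nat.Prime.dvd_mul h.1).mp hd with hd | hd
        · exact h.2.1 (Dvd.dvd.mul_right hd q)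
        · have : ℓ = p := (Nat.prime_dvd_prime_iff_eq h.1 hp).mp hd
          exact h.2.2 (by rw [this]; exact_mod_cast hpS)
      exact if_pos hg'
    have h2 := hlink _ h1
    have h3 : FreeAlgebra.lift ℤ (fun ℓ => (T' ℓ).map (Int.castRingHom 𝒪)) (mask G P) = 0 := by
      rw [lift_map_cast, h2]
      ext i j
      simp
    rw [lift_mask] at h3
    have h4 := lift_mulVec_eigen
      (fun ℓ => if G ℓ then (T' ℓ).map (Int.castRingHom 𝒪) else 0) (S30.eigSys χ) w (by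
        intro ℓ
        by_cases h : G ℓ
        · simp only [if_pos h]
          exact hw ℓ h.1 h.2.1 (by exact_mod_cast h.2.2)
        · simp only [if_neg h, Matrix.zero_mulVec]
          rw [heig]
          simp only [τ, dif_neg h, map_zero, zero_smul]) P
    rw [h3, Matrix.zero_mulVec] at h4
    have h5 : FreeAlgebra.lift ℤ (S30.eigSys χ) P = 0 :=
      (smul_eq_zero.mp h4.symm).resolve_right hw0
    have h6 : FreeAlgebra.lift ℤ (S30.eigSys χ) P = χ (FreeAlgebra.lift ℤ τ P) := by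
      rw [← S30.prim_lift_map χ τ P]
      congr 2
      funext ℓ
      exact heig ℓ
    rw [h6, hχ, RingHom.comp_apply] at h5
    have h7 : chig.rangeRestrict (FreeAlgebra.lift ℤ τ P) = 0 :=
      iota_injective _ chig iota (h5.trans (map_zero iota).symm)
    have h8 : chig (FreeAlgebra.lift ℤ τ P) = 0 := congrArg Subtype.val h7
    rw [← h8]
    exact S30.prim_lift_map chig τ P
  obtain ⟨f, hf0, hf⟩ := exists_eigenvector_S2 N G a hrel
  obtain ⟨g', hg', hg'a⟩ := exists_normalized N G a f hf0 hf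
  have hS : ∀ ℓ : ℕ, ℓ.Prime → ℓ ∉ S → qCoeff g' ℓ = qCoeff g ℓ := by
    intro ℓ hℓ hℓS
    have hG : G ℓ := ⟨hℓ, fun hd => hℓS (hMS ℓ hℓ hd), by exact_mod_cast hℓS⟩
    rw [hg'a ℓ hℓ (fun hd => hG.2.1 (Dvd.dvd.mul_right hd q)) hG, ha ℓ hG]
  refine hg.2 N (Dvd.intro q rfl) ?_ ⟨g', hg', fun ℓ hℓ hℓM => ?_⟩
  · intro h
    have hN : 0 < N := Nat.pos_of_ne_zero (NeZero.ne N)
    nlinarith
  · exact smo_lite hg.1 hg' (NeZero.ne _) (NeZero.ne N) S hS ℓ hℓ hℓM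
      (fun hd => hℓM (Dvd.dvd.mul_right hd q))

end Fermat.Agent.NEW
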