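import Fermat.Agent.S30.Rep

set_option autoImplicit false

/-!
# NEW: `S30.exists_rep`, keeping the congruences `ρ σ ≡ R n σ (𝔪 ^ n)`
-/

namespace Fermat.Agent.NEW

open IsLocalRing Fermat.Agent.S30

theorem exists_rep' {N p : ℕ} [NeZero N] (D : AdicESDatum N p) (𝒪 : Type) [CommRing 𝒪]
    [IsLocalRing 𝒪] [IsAdicComplete (maximalIdeal 𝒪) 𝒪] (hp : (p : 𝒪) ∈ maximalIdeal 𝒪) :
    ∃ ρ : GQ →* Matrix (Fin D.r) (Fin D.r) 𝒪, IsAdicRep N p (D.TO 𝒪) ρ ∧
      ∀ σ n, MCong (maximalIdeal 𝒪 ^ n) (ρ σ) ((D.R n σ).map (Int.castRingHom 𝒪)) := by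
  set 𝔪 := maximalIdeal 𝒪 with h𝔪
  let c : Matrix (Fin D.r) (Fin D.r) ℤ → Matrix (Fin D.r) (Fin D.r) 𝒪 :=
    fun A => A.map (Int.castRingHom 𝒪)
  have hc : ∀ {n : ℕ} {A B : Matrix (Fin D.r) (Fin D.r) ℤ}, MCong (pIdeal p n) A B →
      MCong (𝔪 ^ n) (c A) (c B) := fun {n A B} h => h.map _ (pIdeal_map_le hp n)
  choose ρ hρ using fun σ : GQ => exists_mlim 𝔪 (fun n => c (D.R n σ)) (fun n => hc (D.R_succ n σ))
  have h1 : ρ 1 = 1 := by
    refine eq_of_forall_mcong 𝔪 fun n => (hρ 1 n).trans ?_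
    have := hc (D.R_one n)
    simpa only [c, rep_map_one] using this
  have hmul : ∀ σ τ, ρ (σ * τ) = ρ σ * ρ τ := by
    intro σ τ
    refine eq_of_forall_mcong 𝔪 fun n => (hρ (σ * τ) n).trans ?_
    have := hc (D.R_mul n σ τ)
    simp only [c, rep_map_mul] at this
    exact this.trans ((hρ σ n).mul (hρ τ n)).symm
  refine ⟨{ toFun := ρ, map_one' := h1, map_mul' := hmul }, ⟨?_, ?_, ?_, ?_⟩, fun σ n => hρ σ n⟩
  · intro σ ℓ
    refine eq_of_forall_mcong 𝔪 fun n => ?_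
    have := hc (D.R_T n σ ℓ)
    simp only [c, rep_map_mul] at this
    exact (((hρ σ n).mul (MCong.refl _)).trans this).trans ((MCong.refl _).mul (hρ σ n)).symm
  · intro n
    obtain ⟨L, hL, h⟩ := D.level n
    refine ⟨L, hL, fun σ hσ => (hρ σ n).trans ?_⟩
    have := hc (h σ hσ)
    simpa only [c, rep_map_one] using this
  · intro q hq hqN A hA σ hσ
    refine eq_of_forall_mcong 𝔪 fun n => (hρ σ n).trans ?_
    have := hc (D.unram n q hq hqN A hA σ hσ)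
    simpa only [c, rep_map_one] using this
  · intro ℓ hℓ hℓN A hA σ hσ
    refine eq_of_forall_mcong 𝔪 fun n => ?_
    have := hc (D.es n ℓ hℓ hℓN A hA σ hσ)
    have e : c (D.R n σ * D.R n σ + (ℓ : ℤ) • 1) = c (D.R n σ) * c (D.R n σ) + (ℓ : 𝒪) • 1 := by
      have h3 : c ((ℓ : ℤ) • 1) = (ℓ : 𝒪) • 1 := by
        have h4 : c ((ℓ : ℤ) • 1) = (ℓ : ℤ) • (1 : Matrix (Fin D.r) (Fin D.r) 𝒪) := by
          have := map_zsmul (Int.castRingHom 𝒪).mapMatrix (ℓ : ℤ)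
            (1 : Matrix (Fin D.r) (Fin D.r) ℤ)
          rwa [map_one] at this
        rw [h4, ← Int.cast_smul_eq_zsmul 𝒪, Int.cast_natCast]
      rw [← h3]
      simp only [c, ← rep_map_mul]
      exact map_add (Int.castRingHom 𝒪).mapMatrix _ _
    rw [e] at this
    simp only [c, rep_map_mul] at this
    exact ((((hρ σ n).mul (hρ σ n)).add (MCong.refl _)).trans this).trans
      ((MCong.refl _).mul (hρ σ n)).symm

end Fermat.Agent.NEW
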